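import Mathlib
import Fermat.Agent.TW.TR.Pseudo
import Fermat.Agent.RIB.Star

/-!
# RIB / RHO-MOD : the `M₂(R)`-module structure  (Mathlib + `TW/TR/Pseudo` + `RIB/Star` only)

`R` a commutative ring with `i2 * 2 = 1`, `E` an `R`-algebra, `γ : G →* E`, `c : G →* R`, `t : G → R` with

  (SPEC)   `γ g + c g • γ g⁻¹ = algebraMap R E (t g)`        (Eichler–Shimura + Chebotarev),

`c₀ ∈ G` with `c₀² = 1`, `c c₀ = -1`, and `u * xF σ₀ τ₀ = 1` (`aF, dF, xF` = Wiles' functions of `TW/TR/Pseudo.lean`).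

* `isPseudo_of_spec`, `isPseudo_of_spec_module` : if `R` acts faithfully then `t` is a pseudo-character with determinant `c`.
* `exists_phiAlg` : there is `Φ : M₂(R) →ₐ[R] E` with `Φ (ρ g) = γ g`, `ρ g = !![aF g, u * xF g τ₀; xF σ₀ g, dF g]`
  (the explicit representation of `TR.exists_rep`).
* `exists_phi` : the same for `E = Module.End R W`, `γ` = an action of `G` on the `R`-module `W`.
* `exists_rho_phi` : the package (`ρ`, `Φ`, trace, determinant, `Φ` faithful) for a faithful `R`-module `W`.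
* `rhoMat`, `rhoMat_map` : the explicit matrix and its compatibility with ring homomorphisms: the reduction of `ρ` is given by the
  same formulas in the reduction of `t`.

Proof.  `e± = (1 ± γ c₀)/2`.  (SPEC) for `g` and `c₀ g` gives `t g + t (c₀ g) = (1 + γ c₀) γ g + c g • γ g⁻¹ (1 - γ c₀)`, hence
`e₊ γ g e₊ = a(g) e₊`; in the same way `e₋ γ g e₋ = d(g) e₋`; so `e₊ g e₋ g' e₊ = (a(g g') - a(g) a(g')) e₊ = x(g,g') e₊` and
`e₋ g' e₊ g e₋ = (d(g' g) - d(g') d(g)) e₋ = x(g,g') e₋`.  `E₁₂ := e₊ σ₀ e₋`, `E₂₁ := u e₋ τ₀ e₊` complete `e₊, e₋` to a system of matrix units.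
-/

set_option autoImplicit false

namespace Fermat.Agent.RIB.Rho

open Fermat.Agent.TW.TR

variable {R E G : Type*} [CommRing R] [Ring E] [Algebra R E] [Group G]
  {γ : G →* E} {c : G →* R} {t : G → R}

theorem c_mul_c_inv (c : G →* R) (g : G) : c g * c g⁻¹ = 1 := by
  rw [← map_mul, mul_inv_cancel, map_one]

section Pseudo

variable (hs : ∀ g, γ g + c g • γ g⁻¹ = algebraMap R E (t g))
include hs

/-- `t` is a pseudo-character if `R` acts faithfully. -/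
theorem isPseudo_of_spec (hinj : Function.Injective (algebraMap R E)) : IsPseudo t c where
  one := by
    apply hinj
    rw [← hs 1, inv_one, map_one, map_one, one_smul, map_ofNat, one_add_one_eq_two]
  mul σ τ := by
    apply hinj
    have hcomm : γ σ⁻¹ * algebraMap R E (t τ) = algebraMap R E (t τ) * γ σ⁻¹ :=
      (Algebra.commutes _ _).symm
    rw [← hs τ, mul_add, add_mul, mul_smul_comm, smul_mul_assoc] at hcomm
    have h2 : c τ * (c σ * c τ⁻¹) = c σ := by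
      rw [mul_left_comm, c_mul_c_inv, mul_one]
    rw [map_mul, map_add, map_mul, ← hs σ, ← hs τ, ← hs (σ * τ), ← hs (σ * τ⁻¹), _root_.mul_inv_rev,
      _root_.mul_inv_rev, inv_inv, ← Algebra.smul_def]
    simp only [map_mul, mul_add, add_mul, mul_smul_comm, smul_mul_assoc, smul_add, smul_smul, h2]
    linear_combination (norm := module) c σ • hcomm
  comm σ τ := by
    apply hinj
    have hcomm : γ τ * algebraMap R E (t (σ * τ)) * γ τ⁻¹ = algebraMap R E (t (σ * τ)) := by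
      rw [← Algebra.commutes, mul_assoc, ← map_mul, mul_inv_cancel, map_one, mul_one]
    have e1 : τ * (σ * τ) * τ⁻¹ = τ * σ := by group
    have e2 : τ * (σ * τ)⁻¹ * τ⁻¹ = (τ * σ)⁻¹ := by group
    rw [← hcomm, ← hs (σ * τ), ← hs (τ * σ), mul_add, add_mul, mul_smul_comm, smul_mul_assoc,
      ← map_mul, ← map_mul, ← map_mul, ← map_mul, e1, e2, map_mul c, map_mul c, mul_comm (c σ)]

end Pseudo

/-! ### matrix units -/

/-- a system of `2 × 2` matrix units in `E` -/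
structure IsUnits (e11 e12 e21 e22 : E) : Prop where
  sum : e11 + e22 = 1
  h11_11 : e11 * e11 = e11
  h11_12 : e11 * e12 = e12
  h11_21 : e11 * e21 = 0
  h11_22 : e11 * e22 = 0
  h12_11 : e12 * e11 = 0
  h12_12 : e12 * e12 = 0
  h12_21 : e12 * e21 = e11
  h12_22 : e12 * e22 = e12
  h21_11 : e21 * e11 = e21
  h21_12 : e21 * e12 = e22
  h21_21 : e21 * e21 = 0
  h21_22 : e21 * e22 = 0
  h22_11 : e22 * e11 = 0
  h22_12 : e22 * e12 = 0
  h22_21 : e22 * e21 = e21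
  h22_22 : e22 * e22 = e22

/-- the linear map attached to four elements -/
def unitsLin (R : Type*) {E : Type*} [CommRing R] [Ring E] [Algebra R E] (e11 e12 e21 e22 : E) :
    Matrix (Fin 2) (Fin 2) R →ₗ[R] E where
  toFun X := X 0 0 • e11 + X 0 1 • e12 + X 1 0 • e21 + X 1 1 • e22
  map_add' X Y := by
    simp only [Matrix.add_apply, add_smul]
    abel
  map_smul' r X := by
    simp only [Matrix.smul_apply, smul_eq_mul, mul_smul, smul_add, RingHom.id_apply]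

/-- the algebra homomorphism `M₂(R) → E` attached to a system of matrix units -/
def IsUnits.algHom {e11 e12 e21 e22 : E} (H : IsUnits e11 e12 e21 e22) :
    Matrix (Fin 2) (Fin 2) R →ₐ[R] E :=
  AlgHom.ofLinearMap (unitsLin R e11 e12 e21 e22)
    (by
      show (1 : Matrix (Fin 2) (Fin 2) R) 0 0 • e11 + (1 : Matrix (Fin 2) (Fin 2) R) 0 1 • e12 +
        (1 : Matrix (Fin 2) (Fin 2) R) 1 0 • e21 + (1 : Matrix (Fin 2) (Fin 2) R) 1 1 • e22 = 1
      simp [H.sum])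
    (by
      intro X Y
      show (X * Y) 0 0 • e11 + (X * Y) 0 1 • e12 + (X * Y) 1 0 • e21 + (X * Y) 1 1 • e22 =
        (X 0 0 • e11 + X 0 1 • e12 + X 1 0 • e21 + X 1 1 • e22) *
        (Y 0 0 • e11 + Y 0 1 • e12 + Y 1 0 • e21 + Y 1 1 • e22)
      simp only [Matrix.mul_apply, Fin.sum_univ_two, mul_add, add_mul, smul_mul_smul_comm,
        H.h11_11, H.h11_12, H.h11_21, H.h11_22, H.h12_11, H.h12_12, H.h12_21, H.h12_22,
        H.h21_11, H.h21_12, H.h21_21, H.h21_22, H.h22_11, H.h22_12, H.h22_21, H.h22_22,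
        smul_zero, add_zero, zero_add, add_smul]
      abel)

theorem IsUnits.algHom_apply {e11 e12 e21 e22 : E} (H : IsUnits e11 e12 e21 e22)
    (X : Matrix (Fin 2) (Fin 2) R) :
    H.algHom (R := R) X = X 0 0 • e11 + X 0 1 • e12 + X 1 0 • e21 + X 1 1 • e22 := rfl

/-! ### the idempotents -/

/-- `(1 + γ c₀) / 2` -/
def ep (γ : G →* E) (i2 : R) (c₀ : G) : E := i2 • (1 + γ c₀)

/-- `(1 - γ c₀) / 2` -/
def em (γ : G →* E) (i2 : R) (c₀ : G) : E := i2 • (1 - γ c₀)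

section Idem

variable {i2 : R} {c₀ : G} (h2 : i2 * 2 = 1) (hc₀ : c₀ * c₀ = 1)

include hc₀ in
theorem gam_sq : γ c₀ * γ c₀ = 1 := by rw [← map_mul, hc₀, map_one]

include hc₀ in
theorem inv_c₀ : c₀⁻¹ = c₀ := inv_eq_of_mul_eq_one_left hc₀

include h2 in
theorem ep_add_em : ep γ i2 c₀ + em γ i2 c₀ = 1 := by
  rw [ep, em, ← smul_add, add_add_sub_cancel, ← two_smul R (1 : E), smul_smul, h2, one_smul]

include hc₀ in
theorem one_sub_mul_one_add : (1 - γ c₀) * (1 + γ c₀) = 0 := by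
  rw [sub_mul, mul_add, mul_add, gam_sq hc₀]; simp [add_comm]

include hc₀ in
theorem one_add_mul_one_sub : (1 + γ c₀) * (1 - γ c₀) = 0 := by
  rw [add_mul, mul_sub, mul_sub, gam_sq hc₀]; simp

include hc₀ in
theorem em_mul_ep : em γ i2 c₀ * ep γ i2 c₀ = 0 := by
  rw [em, ep, smul_mul_smul_comm, one_sub_mul_one_add hc₀, smul_zero]

include hc₀ in
theorem ep_mul_em : ep γ i2 c₀ * em γ i2 c₀ = 0 := by
  rw [em, ep, smul_mul_smul_comm, one_add_mul_one_sub hc₀, smul_zero]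

include h2 hc₀ in
theorem ep_mul_ep : ep γ i2 c₀ * ep γ i2 c₀ = ep γ i2 c₀ := by
  have h := congrArg (fun z => ep γ i2 c₀ * z) (ep_add_em (γ := γ) (c₀ := c₀) h2)
  simp only [mul_add, ep_mul_em hc₀, add_zero, mul_one] at h
  exact h

include h2 hc₀ in
theorem em_mul_em : em γ i2 c₀ * em γ i2 c₀ = em γ i2 c₀ := by
  have h := congrArg (fun z => em γ i2 c₀ * z) (ep_add_em (γ := γ) (c₀ := c₀) h2)
  simp only [mul_add, em_mul_ep hc₀, zero_add, mul_one] at h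
  exact h

end Idem

section Main

variable {i2 : R} {c₀ : G} (hs : ∀ g, γ g + c g • γ g⁻¹ = algebraMap R E (t g))
  (h : IsPseudo t c) (h2 : i2 * 2 = 1) (hc₀ : c₀ * c₀ = 1) (hcc : c c₀ = -1)

include hc₀ in
theorem one_sub_mul_ep : (1 - γ c₀) * ep γ i2 c₀ = 0 := by
  rw [ep, mul_smul_comm, one_sub_mul_one_add hc₀, smul_zero]

include hc₀ in
theorem one_add_mul_em : (1 + γ c₀) * em γ i2 c₀ = 0 := by
  rw [em, mul_smul_comm, one_add_mul_one_sub hc₀, smul_zero]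

include hs hc₀ hcc in
/-- `e₊ g e₊ = a(g) e₊` -/
theorem ep_mul_ep' (g : G) :
    ep γ i2 c₀ * γ g * ep γ i2 c₀ = aF t i2 c₀ g • ep γ i2 c₀ := by
  have h1 : algebraMap R E (t g + t (c₀ * g)) = (1 + γ c₀) * γ g + c g • (γ g⁻¹ * (1 - γ c₀)) := by
    rw [map_add, ← hs g, ← hs (c₀ * g), _root_.mul_inv_rev, inv_c₀ hc₀]
    simp only [map_mul, hcc, mul_sub, add_mul, one_mul, mul_one, smul_sub, neg_mul, neg_smul]
    abel
  have h3 : (t g + t (c₀ * g)) • ep γ i2 c₀ = (1 + γ c₀) * γ g * ep γ i2 c₀ := by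
    rw [Algebra.smul_def, h1, add_mul, smul_mul_assoc, mul_assoc (γ g⁻¹), one_sub_mul_ep hc₀,
      mul_zero, smul_zero, add_zero]
  rw [aF_eq, mul_smul, h3]
  conv_lhs => rw [mul_assoc, ep, smul_mul_assoc]
  rw [mul_assoc]
  rfl

include hs hc₀ hcc in
/-- `e₋ g e₋ = d(g) e₋` -/
theorem em_mul_em' (g : G) :
    em γ i2 c₀ * γ g * em γ i2 c₀ = dF t i2 c₀ g • em γ i2 c₀ := by
  have h1 : algebraMap R E (t g - t (c₀ * g)) = (1 - γ c₀) * γ g + c g • (γ g⁻¹ * (1 + γ c₀)) := by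
    rw [map_sub, ← hs g, ← hs (c₀ * g), _root_.mul_inv_rev, inv_c₀ hc₀]
    simp only [map_mul, hcc, mul_add, sub_mul, one_mul, mul_one, smul_add, neg_mul, neg_smul]
    abel
  have h3 : (t g - t (c₀ * g)) • em γ i2 c₀ = (1 - γ c₀) * γ g * em γ i2 c₀ := by
    rw [Algebra.smul_def, h1, add_mul, smul_mul_assoc, mul_assoc (γ g⁻¹), one_add_mul_em hc₀,
      mul_zero, smul_zero, add_zero]
  rw [dF_eq, mul_smul, h3]
  conv_lhs => rw [mul_assoc, em, smul_mul_assoc]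
  rw [mul_assoc]
  rfl

include hs h h2 hc₀ hcc in
/-- `e₊ g e₋ g' e₊ = x(g, g') e₊` -/
theorem ep_em_ep (g g' : G) :
    ep γ i2 c₀ * γ g * em γ i2 c₀ * γ g' * ep γ i2 c₀ = xF t i2 c₀ g g' • ep γ i2 c₀ := by
  have e : em γ i2 c₀ = 1 - ep γ i2 c₀ := eq_sub_of_add_eq' (ep_add_em h2)
  have h1 : ep γ i2 c₀ * γ g * ep γ i2 c₀ * γ g' * ep γ i2 c₀ =
      (aF t i2 c₀ g * aF t i2 c₀ g') • ep γ i2 c₀ := by
    rw [ep_mul_ep' hs hc₀ hcc, smul_mul_assoc, smul_mul_assoc, ep_mul_ep' hs hc₀ hcc, smul_smul]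
  have h3 : ep γ i2 c₀ * γ g * γ g' * ep γ i2 c₀ = aF t i2 c₀ (g * g') • ep γ i2 c₀ := by
    rw [mul_assoc (ep γ i2 c₀), ← map_mul, ep_mul_ep' hs hc₀ hcc]
  rw [e, mul_sub, mul_one, sub_mul, sub_mul, h1, h3, aF_mul h h2 hc₀ hcc, ← sub_smul,
    add_sub_cancel_left]

include hs h h2 hc₀ hcc in
/-- `e₋ g' e₊ g e₋ = x(g, g') e₋` -/
theorem em_ep_em (g g' : G) :
    em γ i2 c₀ * γ g' * ep γ i2 c₀ * γ g * em γ i2 c₀ = xF t i2 c₀ g g' • em γ i2 c₀ := by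
  have e : ep γ i2 c₀ = 1 - em γ i2 c₀ := eq_sub_of_add_eq (ep_add_em h2)
  have h1 : em γ i2 c₀ * γ g' * em γ i2 c₀ * γ g * em γ i2 c₀ =
      (dF t i2 c₀ g' * dF t i2 c₀ g) • em γ i2 c₀ := by
    rw [em_mul_em' hs hc₀ hcc, smul_mul_assoc, smul_mul_assoc, em_mul_em' hs hc₀ hcc, smul_smul]
  have h3 : em γ i2 c₀ * γ g' * γ g * em γ i2 c₀ = dF t i2 c₀ (g' * g) • em γ i2 c₀ := by
    rw [mul_assoc (em γ i2 c₀), ← map_mul, em_mul_em' hs hc₀ hcc]
  rw [e, mul_sub, mul_one, sub_mul, sub_mul, h1, h3, dF_mul h h2 hc₀ hcc, ← sub_smul,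
    add_sub_cancel_left]

variable {σ₀ τ₀ : G} {u : R} (hu : u * xF t i2 c₀ σ₀ τ₀ = 1)

include hs h h2 hc₀ hcc hu in
/-- the matrix units -/
theorem isUnits : IsUnits (ep γ i2 c₀) (ep γ i2 c₀ * γ σ₀ * em γ i2 c₀)
    (u • (em γ i2 c₀ * γ τ₀ * ep γ i2 c₀)) (em γ i2 c₀) := by
  have pp := ep_mul_ep (γ := γ) h2 hc₀
  have mm := em_mul_em (γ := γ) h2 hc₀
  have pm := ep_mul_em (γ := γ) (i2 := i2) hc₀
  have mp := em_mul_ep (γ := γ) (i2 := i2) hc₀
  refine ⟨ep_add_em h2, pp, ?_, ?_, pm, ?_, ?_, ?_, ?_, ?_, ?_, ?_, ?_, mp, ?_, ?_, mm⟩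
  · rw [← mul_assoc, ← mul_assoc, pp]
  · rw [mul_smul_comm, ← mul_assoc, ← mul_assoc, pm, zero_mul, zero_mul, smul_zero]
  · rw [mul_assoc, mp, mul_zero]
  · rw [mul_assoc, ← mul_assoc (em γ i2 c₀), ← mul_assoc (em γ i2 c₀), mp, zero_mul, zero_mul,
      mul_zero]
  · rw [mul_smul_comm, mul_assoc (ep γ i2 c₀ * γ σ₀), ← mul_assoc (em γ i2 c₀),
      ← mul_assoc (em γ i2 c₀), mm, ← mul_assoc, ← mul_assoc, ep_em_ep hs h h2 hc₀ hcc, smul_smul,
      hu, one_smul]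
  · rw [mul_assoc, mm]
  · rw [smul_mul_assoc, mul_assoc, pp]
  · rw [smul_mul_assoc, mul_assoc (em γ i2 c₀ * γ τ₀), ← mul_assoc (ep γ i2 c₀),
      ← mul_assoc (ep γ i2 c₀), pp, ← mul_assoc, ← mul_assoc, em_ep_em hs h h2 hc₀ hcc, smul_smul,
      hu, one_smul]
  · rw [smul_mul_smul_comm, mul_assoc (em γ i2 c₀ * γ τ₀), ← mul_assoc (ep γ i2 c₀),
      ← mul_assoc (ep γ i2 c₀), pm, zero_mul, zero_mul, mul_zero, smul_zero]
  · rw [smul_mul_assoc, mul_assoc, pm, mul_zero, smul_zero]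
  · rw [← mul_assoc, ← mul_assoc, mp, zero_mul, zero_mul]
  · rw [mul_smul_comm, ← mul_assoc, ← mul_assoc, mm]

include hs h h2 hc₀ hcc hu in
/-- **RHO-MOD**, algebra form. -/
theorem exists_phiAlg : ∃ Φ : Matrix (Fin 2) (Fin 2) R →ₐ[R] E, ∀ g,
    Φ !![aF t i2 c₀ g, u * xF t i2 c₀ g τ₀; xF t i2 c₀ σ₀ g, dF t i2 c₀ g] = γ g := by
  have H := isUnits hs h h2 hc₀ hcc hu
  refine ⟨H.algHom, fun g => ?_⟩
  rw [IsUnits.algHom_apply]
  simp only [Matrix.of_apply, Matrix.cons_val', Matrix.cons_val_zero, Matrix.cons_val_one,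
    Matrix.cons_val_fin_one]
  have pp := ep_mul_ep (γ := γ) h2 hc₀
  have mm := em_mul_em (γ := γ) h2 hc₀
  -- the four blocks
  have b11 := ep_mul_ep' (γ := γ) (i2 := i2) hs hc₀ hcc g
  have b22 := em_mul_em' (γ := γ) (i2 := i2) hs hc₀ hcc g
  have b12 : ep γ i2 c₀ * γ g * em γ i2 c₀ =
      (u * xF t i2 c₀ g τ₀) • (ep γ i2 c₀ * γ σ₀ * em γ i2 c₀) := by
    conv_lhs => rw [← H.h21_12]
    rw [smul_mul_assoc, mul_smul_comm, ← mul_assoc, ← mul_assoc (ep γ i2 c₀ * γ g),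
      ← mul_assoc (ep γ i2 c₀ * γ g), ep_em_ep hs h h2 hc₀ hcc, smul_mul_assoc, H.h11_12,
      smul_smul]
  have b21 : em γ i2 c₀ * γ g * ep γ i2 c₀ =
      xF t i2 c₀ σ₀ g • (u • (em γ i2 c₀ * γ τ₀ * ep γ i2 c₀)) := by
    conv_lhs => rw [← H.h12_21]
    rw [← mul_assoc, ← mul_assoc (em γ i2 c₀ * γ g), ← mul_assoc (em γ i2 c₀ * γ g),
      em_ep_em hs h h2 hc₀ hcc, smul_mul_assoc, H.h22_21]
  rw [← b11, ← b12, ← b21, ← b22]
  have e : γ g = (ep γ i2 c₀ + em γ i2 c₀) * γ g * (ep γ i2 c₀ + em γ i2 c₀) := by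
    rw [ep_add_em h2, one_mul, mul_one]
  conv_rhs => rw [e]
  simp only [add_mul, mul_add]
  abel

end Main

/-! ### modules -/

section Module

variable {W : Type*} [AddCommGroup W] [Module R W] [DistribMulAction G W] [SMulCommClass G R W]

/-- `t` is a pseudo-character if `R` acts faithfully on `W`. -/
theorem isPseudo_of_spec_module (hs : ∀ (g : G) (w : W), g • w + c g • g⁻¹ • w = t g • w)
    (hf : ∀ r : R, (∀ w : W, r • w = 0) → r = 0) : IsPseudo t c := by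
  refine isPseudo_of_spec (E := Module.End R W) (γ := DistribMulAction.toModuleEnd R W)
    (fun g => LinearMap.ext fun w => hs g w) ?_
  rw [injective_iff_map_eq_zero]
  intro r hr
  refine hf r fun w => ?_
  have := LinearMap.congr_fun hr w
  simpa [Module.algebraMap_end_apply] using this

/-- **RHO-MOD** : `W` is a module over `M₂(R)` and `g` acts as the explicit matrix `ρ g`. -/
theorem exists_phi {i2 : R} {c₀ σ₀ τ₀ : G} {u : R}
    (hs : ∀ (g : G) (w : W), g • w + c g • g⁻¹ • w = t g • w) (h : IsPseudo t c)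
    (h2 : i2 * 2 = 1) (hc₀ : c₀ * c₀ = 1) (hcc : c c₀ = -1) (hu : u * xF t i2 c₀ σ₀ τ₀ = 1) :
    ∃ Φ : Matrix (Fin 2) (Fin 2) R →ₐ[R] Module.End R W, ∀ (g : G) (w : W),
      Φ !![aF t i2 c₀ g, u * xF t i2 c₀ g τ₀; xF t i2 c₀ σ₀ g, dF t i2 c₀ g] w = g • w := by
  obtain ⟨Φ, hΦ⟩ := exists_phiAlg (E := Module.End R W) (γ := DistribMulAction.toModuleEnd R W)
    (fun g => LinearMap.ext fun w => hs g w) h h2 hc₀ hcc hu
  exact ⟨Φ, fun g w => by rw [hΦ]; rfl⟩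

/-- `Φ` is injective if `R` acts faithfully on `W`. -/
theorem eq_zero_of_phi_eq_zero (Φ : Matrix (Fin 2) (Fin 2) R →ₐ[R] Module.End R W)
    (hf : ∀ r : R, (∀ w : W, r • w = 0) → r = 0) (X : Matrix (Fin 2) (Fin 2) R)
    (hX : ∀ w : W, Φ X w = 0) : X = 0 := by
  ext i j
  exact hf _ fun w => entry_smul_eq_zero Φ ⊤ (fun _ _ _ => Submodule.mem_top) X
    (fun x _ => hX x) i j (Submodule.mem_top (x := w))

theorem eq_of_phi_eq (Φ : Matrix (Fin 2) (Fin 2) R →ₐ[R] Module.End R W)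
    (hf : ∀ r : R, (∀ w : W, r • w = 0) → r = 0) {X Y : Matrix (Fin 2) (Fin 2) R}
    (hXY : ∀ w : W, Φ X w = Φ Y w) : X = Y := by
  rw [← sub_eq_zero]
  refine eq_zero_of_phi_eq_zero Φ hf _ fun w => ?_
  rw [map_sub, LinearMap.sub_apply, hXY, sub_self]

/-- **(RHO)**, abstract package : `W` a faithful `R`-module with (SPEC). -/
theorem exists_rho_phi {i2 : R} {c₀ σ₀ τ₀ : G} {u : R}
    (hs : ∀ (g : G) (w : W), g • w + c g • g⁻¹ • w = t g • w)
    (hf : ∀ r : R, (∀ w : W, r • w = 0) → r = 0)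
    (h2 : i2 * 2 = 1) (hc₀ : c₀ * c₀ = 1) (hcc : c c₀ = -1) (hu : u * xF t i2 c₀ σ₀ τ₀ = 1) :
    ∃ (ρ : G →* Matrix (Fin 2) (Fin 2) R) (Φ : Matrix (Fin 2) (Fin 2) R →ₐ[R] Module.End R W),
      (∀ g, ρ g = !![aF t i2 c₀ g, u * xF t i2 c₀ g τ₀; xF t i2 c₀ σ₀ g, dF t i2 c₀ g]) ∧
      (∀ g, (ρ g).trace = t g) ∧ (∀ g, (ρ g).det = c g) ∧
      (∀ (g : G) (w : W), Φ (ρ g) w = g • w) ∧
      (∀ X : Matrix (Fin 2) (Fin 2) R, (∀ w : W, Φ X w = 0) → X = 0) := by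
  have h := isPseudo_of_spec_module hs hf
  obtain ⟨ρ, -, hρ, htr, hdet, -⟩ := exists_rep h h2 hc₀ hcc σ₀ τ₀ u hu
  obtain ⟨Φ, hΦ⟩ := exists_phi hs h h2 hc₀ hcc hu
  exact ⟨ρ, Φ, hρ, htr, hdet, fun g w => by rw [hρ, hΦ], eq_zero_of_phi_eq_zero Φ hf⟩

end Module

/-! ### naturality -/

section Nat

variable {R' : Type*} [CommRing R'] (π : R →+* R')

/-- the explicit matrix -/
noncomputable def rhoMat (t : G → R) (i2 : R) (c₀ σ₀ τ₀ : G) (u : R) (g : G) :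
    Matrix (Fin 2) (Fin 2) R :=
  !![aF t i2 c₀ g, u * xF t i2 c₀ g τ₀; xF t i2 c₀ σ₀ g, dF t i2 c₀ g]

theorem map_aF (t : G → R) (i2 : R) (c₀ g : G) :
    π (aF t i2 c₀ g) = aF (fun x => π (t x)) (π i2) c₀ g := by
  rw [aF_eq, aF_eq, map_mul, map_add]

theorem map_dF (t : G → R) (i2 : R) (c₀ g : G) :
    π (dF t i2 c₀ g) = dF (fun x => π (t x)) (π i2) c₀ g := by
  rw [dF_eq, dF_eq, map_mul, map_sub]

theorem map_xF (t : G → R) (i2 : R) (c₀ g g' : G) :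
    π (xF t i2 c₀ g g') = xF (fun x => π (t x)) (π i2) c₀ g g' := by
  rw [xF_eq, xF_eq, map_mul, map_mul, map_sub, map_sub, map_add]

/-- the reduction of `ρ` is given by the same formulas in the reduction of `t`. -/
theorem rhoMat_map (t : G → R) (i2 : R) (c₀ σ₀ τ₀ : G) (u : R) (g : G) :
    (rhoMat t i2 c₀ σ₀ τ₀ u g).map π = rhoMat (fun x => π (t x)) (π i2) c₀ σ₀ τ₀ (π u) g := by
  ext i j
  fin_cases i <;> fin_cases j <;>
    simp [rhoMat, map_aF, map_dF, map_xF]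

end Nat

end Fermat.Agent.RIB.Rho
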