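import Mathlib
import Fermat.Agent.RIB.Rho.Mod

/-!
# RIB / RHO / Ring : from a group action with central `g + χ(g) g⁻¹` to `(R, t, ρ, Φ)`   (Mathlib + `Rho/Mod`)

`Λ` ANY commutative ring (`ZMod (p^j)`), `V` a `Λ`-module with a `Λ`-linear action of a group `G`, `χ : G →* Λ`.

* `exists_ring` : commuting `T i ∈ End_Λ V` generate a commutative `Λ`-algebra `R` acting faithfully on `V`.
* `exists_rho_abs` : if the operators `g + χ(g) g⁻¹` commute with `G`, and `g + χ(g) g⁻¹ - θ g` is nilpotent (`θ : G → Λ`), and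
  `xF θ i2 c₀ σ₀ τ₀` is a unit of `Λ`, then there are `R`, `t : G → R`, `ρ : G →* M₂(R)`, `Φ : M₂(R) →ₐ[R] End_R V` ...
-/

set_option autoImplicit false

namespace Fermat.Agent.RIB.Rho

open Fermat.Agent.TW.TR Module

universe u

section Ring

variable {Λ : Type*} [CommRing Λ] {V : Type u} [AddCommGroup V] [Module Λ V] {ι : Type*}

/-- the commutative `Λ`-algebra generated by commuting endomorphisms. -/
theorem exists_ring (T : ι → Module.End Λ V) (hcomm : ∀ i j, T i * T j = T j * T i) :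
    ∃ (R : Type u) (_ : CommRing R) (_ : Algebra Λ R) (_ : Module R V)
      (_ : IsScalarTower Λ R V) (tt : ι → R),
      (∀ i v, tt i • v = T i v) ∧ Algebra.adjoin Λ (Set.range tt) = ⊤ ∧
      (∀ x : R, (∀ v : V, x • v = 0) → x = 0) ∧
      (∀ (i : ι) (a : Λ), IsNilpotent (T i - algebraMap Λ (Module.End Λ V) a) →
        IsNilpotent (tt i - algebraMap Λ R a)) ∧
      (∀ g : Module.End Λ V, (∀ i, g * T i = T i * g) → ∀ (x : R) (v : V), g (x • v) = x • g v) ∧
      (Finite V → Finite R) := by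
  set 𝔄 : Subalgebra Λ (Module.End Λ V) := Algebra.adjoin Λ (Set.range T) with h𝔄
  have hc : ∀ x ∈ Set.range T, ∀ y ∈ Set.range T, x * y = y * x := by
    rintro _ ⟨i, rfl⟩ _ ⟨j, rfl⟩
    exact hcomm i j
  letI instC : CommRing 𝔄 := Algebra.adjoinCommRingOfComm Λ hc
  let tt : ι → 𝔄 := fun i => ⟨T i, Algebra.subset_adjoin ⟨i, rfl⟩⟩
  have hgen : Algebra.adjoin Λ (Set.range tt) = ⊤ := by
    have h1 : (Algebra.adjoin Λ (Set.range tt)).map 𝔄.val = 𝔄 := by
      rw [AlgHom.map_adjoin, ← Set.range_comp]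
      rfl
    apply Subalgebra.map_injective (f := 𝔄.val) Subtype.val_injective
    rw [h1, Algebra.map_top, Subalgebra.range_val]
  refine ⟨𝔄, instC, inferInstance, inferInstance, inferInstance, tt,
    fun i v => rfl, hgen, fun x hx => Subtype.ext (LinearMap.ext hx), ?_, ?_, ?_⟩
  · rintro i a ⟨n, hn⟩
    exact ⟨n, Subtype.ext hn⟩
  · intro g hg x v
    obtain ⟨x, hx⟩ := x
    show g (x v) = x (g v)
    induction hx using Algebra.adjoin_induction generalizing v with
    | mem x hx =>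
      obtain ⟨i, rfl⟩ := hx
      exact LinearMap.congr_fun (hg i) v
    | algebraMap c => simp [Module.algebraMap_end_apply]
    | add x y _ _ hx hy => simp [hx, hy]
    | mul x y _ _ hx hy => simp [hx, hy]
  · intro hfin
    have : Function.Injective (fun x : 𝔄 => ((x : Module.End Λ V) : V → V)) := by
      intro x y hxy
      exact Subtype.ext (LinearMap.ext fun v => congrFun hxy v)
    exact Finite.of_injective _ this

end Ring

section Abs

variable {Λ : Type*} [CommRing Λ] {V : Type u} [AddCommGroup V] [Module Λ V] {G : Type*} [Group G]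
  [DistribMulAction G V] [SMulCommClass G Λ V]

/-- the operator `g + χ(g) g⁻¹` -/
noncomputable def tOp (V : Type u) [AddCommGroup V] [Module Λ V] [DistribMulAction G V]
    [SMulCommClass G Λ V] (χ : G →* Λ) (g : G) : Module.End Λ V :=
  DistribMulAction.toModuleEnd Λ V g + χ g • DistribMulAction.toModuleEnd Λ V g⁻¹

theorem tOp_apply (χ : G →* Λ) (g : G) (v : V) : tOp V χ g v = g • v + χ g • g⁻¹ • v := rfl

/-- `xF t` is congruent to `xF θ` modulo the nilradical. -/
theorem xF_sub_mem_nilradical {R : Type*} [CommRing R] [Algebra Λ R] (t : G → R) (θ : G → Λ)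
    (h : ∀ g, IsNilpotent (t g - algebraMap Λ R (θ g))) (i2 : Λ) (c₀ g g' : G) :
    IsNilpotent (xF t (algebraMap Λ R i2) c₀ g g' - algebraMap Λ R (xF θ i2 c₀ g g')) := by
  have hN : ∀ g, t g - algebraMap Λ R (θ g) ∈ nilradical R := fun g => mem_nilradical.2 (h g)
  rw [← mem_nilradical, xF_eq, xF_eq]
  have e : algebraMap Λ R i2 * algebraMap Λ R i2 * (t (g * g') + t (c₀ * g * g') - t (g * c₀ * g')
      - t (c₀ * g * c₀ * g')) - algebraMap Λ R (i2 * i2 * (θ (g * g') + θ (c₀ * g * g')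
      - θ (g * c₀ * g') - θ (c₀ * g * c₀ * g'))) =
      algebraMap Λ R i2 * algebraMap Λ R i2 * ((t (g * g') - algebraMap Λ R (θ (g * g')))
        + (t (c₀ * g * g') - algebraMap Λ R (θ (c₀ * g * g')))
        - (t (g * c₀ * g') - algebraMap Λ R (θ (g * c₀ * g')))
        - (t (c₀ * g * c₀ * g') - algebraMap Λ R (θ (c₀ * g * c₀ * g')))) := by
    simp only [map_mul, map_add, map_sub]
    ring
  rw [e]
  exact Ideal.mul_mem_left _ _ (sub_mem (sub_mem (add_mem (hN _) (hN _)) (hN _)) (hN _))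

/-- **(RHO), abstract** : `Λ` any commutative ring. -/
theorem exists_rho_abs (χ : G →* Λ) (θ : G → Λ)
    (hcen : ∀ (g h : G) (v : V), h • (g • v + χ g • g⁻¹ • v) = g • h • v + χ g • g⁻¹ • h • v)
    (hnil : ∀ g, IsNilpotent (tOp V χ g - algebraMap Λ (Module.End Λ V) (θ g)))
    {i2 : Λ} (h2 : i2 * 2 = 1) {c₀ σ₀ τ₀ : G} (hc₀ : c₀ * c₀ = 1) (hcc : χ c₀ = -1)
    (hu : IsUnit (xF θ i2 c₀ σ₀ τ₀)) :
    ∃ (R : Type u) (_ : CommRing R) (_ : Algebra Λ R) (_ : Module R V) (_ : IsScalarTower Λ R V)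
      (t : G → R) (u : R) (ρ : G →* Matrix (Fin 2) (Fin 2) R)
      (Φ : Matrix (Fin 2) (Fin 2) R →ₐ[R] Module.End R V),
      (∀ (g : G) (v : V), t g • v = g • v + χ g • g⁻¹ • v) ∧
      Algebra.adjoin Λ (Set.range t) = ⊤ ∧
      (∀ x : R, (∀ v : V, x • v = 0) → x = 0) ∧
      (∀ g, IsNilpotent (t g - algebraMap Λ R (θ g))) ∧
      u * xF t (algebraMap Λ R i2) c₀ σ₀ τ₀ = 1 ∧
      (∀ g, ρ g = rhoMat t (algebraMap Λ R i2) c₀ σ₀ τ₀ u g) ∧
      (∀ g, (ρ g).trace = t g) ∧ (∀ g, (ρ g).det = algebraMap Λ R (χ g)) ∧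
      (∀ (g : G) (v : V), Φ (ρ g) v = g • v) ∧
      (∀ X : Matrix (Fin 2) (Fin 2) R, (∀ v : V, Φ X v = 0) → X = 0) ∧ (Finite V → Finite R) := by
  have hgT : ∀ g h : G, DistribMulAction.toModuleEnd Λ V h * tOp V χ g =
      tOp V χ g * DistribMulAction.toModuleEnd Λ V h := fun g h =>
    LinearMap.ext fun v => hcen g h v
  have hcomm : ∀ g h : G, tOp V χ g * tOp V χ h = tOp V χ h * tOp V χ g := by
    intro g h
    show (DistribMulAction.toModuleEnd Λ V g + χ g • DistribMulAction.toModuleEnd Λ V g⁻¹) *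
      tOp V χ h = tOp V χ h *
      (DistribMulAction.toModuleEnd Λ V g + χ g • DistribMulAction.toModuleEnd Λ V g⁻¹)
    rw [add_mul, mul_add, smul_mul_assoc, mul_smul_comm, hgT, hgT]
  obtain ⟨R, iC, iA, iM, iT, t, ht, hgen, hf, hn, hlin, hfin⟩ := exists_ring (tOp V χ) hcomm
  haveI : SMulCommClass G R V := ⟨fun g x v =>
    hlin (DistribMulAction.toModuleEnd Λ V g) (fun i => hgT i g) x v⟩
  have hnil' : ∀ g, IsNilpotent (t g - algebraMap Λ R (θ g)) := fun g => hn g _ (hnil g)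
  have hunit : IsUnit (xF t (algebraMap Λ R i2) c₀ σ₀ τ₀) := by
    have h1 := (xF_sub_mem_nilradical t θ hnil' i2 c₀ σ₀ τ₀).isUnit_add_left_of_commute
      (hu.map (algebraMap Λ R)) (Commute.all _ _)
    simpa using h1
  obtain ⟨u, hu'⟩ := hunit.exists_left_inv
  have hs : ∀ (g : G) (w : V),
      g • w + ((algebraMap Λ R : Λ →* R).comp χ) g • g⁻¹ • w = t g • w := by
    intro g w
    rw [ht, tOp_apply]
    congr 1
    exact algebraMap_smul R (χ g) (g⁻¹ • w)
  obtain ⟨ρ, Φ, h1, h3, h4, h5, h6⟩ := exists_rho_phi (c := (algebraMap Λ R : Λ →* R).comp χ) hs hf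
    (i2 := algebraMap Λ R i2) (by rw [← map_ofNat (algebraMap Λ R) 2, ← map_mul, h2, map_one]) hc₀
    (by
      show algebraMap Λ R (χ c₀) = -1
      rw [hcc, map_neg, map_one]) hu'
  exact ⟨R, iC, iA, iM, iT, t, u, ρ, Φ, fun g v => by rw [ht, tOp_apply], hgen, hf, hnil', hu', h1,
    h3, h4, h5, h6, hfin⟩

end Abs

end Fermat.Agent.RIB.Rho
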