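import Fermat.Agent.RIB.Rho.Spec
import Fermat.Agent.RIB.Rho.Ring
import Fermat.Agent.RIB.Grow.Tau

/-!
# RIB / RHO / Tors : (RHO) for a finite Galois module `V ↪ J₀(L)[m]`, `m = p^j`, contained in the `θ`-part

`V` : a finite `ZMod m`-module with an action of `G_ℚ`, `ι : V →+ J₀(L)` injective and equivariant, such that `T_r - a r` is locally nilpotent
on `ι V` for the primes `r ∉ S`.   `rbar : G_ℚ → M₂(𝔽_p)` continuous with `tr rbar(Frob_r) = a r`, `det = r` (`r ∉ S`).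

* `central` : `g + χ(g) g⁻¹` commutes with `G_ℚ` on `V`;
* `exists_theta` : `θ : G_ℚ → ZMod m` lifting `tr rbar` with `g + χ(g) g⁻¹ - θ g` nilpotent on `V`;
* `exists_rho_tors` : the package `(R, t, u, ρ, Φ)`.
-/

set_option autoImplicit false
set_option linter.unusedSectionVars false

open ModularCurve

namespace Fermat.Agent.RIB.Rho

open Fermat.Agent.GAL Fermat.Agent.TW.TR

local notation "Qbar" => AlgebraicClosure ℚ
local notation "GQ" => (AlgebraicClosure ℚ ≃ₐ[ℚ] AlgebraicClosure ℚ)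
local notation "M2" => Matrix (Fin 2) (Fin 2)

/-- the cyclotomic character modulo `m` with values in the monoid `ZMod m` -/
noncomputable def chiM (m : ℕ) [NeZero m] : GQ →* ZMod m :=
  (Units.coeHom (ZMod m)).comp (cycloChar m)

theorem chiM_apply (m : ℕ) [NeZero m] (g : GQ) : chiM m g = ((cycloChar m g : (ZMod m)ˣ) : ZMod m) :=
  rfl

/-- the Galois action on `J₀(L)` as a `ℤ`-linear map -/
noncomputable def galJ (L : ℕ) (h : GQ) : Module.End ℤ (JZero L) :=
  (DistribSMul.toAddMonoidHom (JZero L) h).toIntLinearMap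

theorem galJ_apply (L : ℕ) (h : GQ) (x : JZero L) : galJ L h x = h • x := rfl

theorem galJ_comm_aeval (L : ℕ) [NeZero L] (h : GQ) (r : Nat.Primes) (Q : Polynomial ℤ) :
    galJ L h * Polynomial.aeval (heckeOperatorBar L r) Q =
      Polynomial.aeval (heckeOperatorBar L r) Q * galJ L h := by
  have h0 : Commute (galJ L h) (heckeOperatorBar L r) :=
    LinearMap.ext fun x => galHecke L r h x
  induction Q using Polynomial.induction_on' with
  | add P Q hP hQ => rw [map_add, mul_add, add_mul, hP, hQ]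
  | monomial n a =>
    rw [Polynomial.aeval_monomial]
    have h1 : Commute (galJ L h) (algebraMap ℤ (Module.End ℤ (JZero L)) a) :=
      (Algebra.commutes a (galJ L h)).symm
    exact h1.mul_right (h0.pow_right n)

section

variable {L m : ℕ} [NeZero L] [NeZero m] {V : Type} [AddCommGroup V] [Module (ZMod m) V]
  [DistribMulAction GQ V]

theorem zmod_smul_eq (c : ZMod m) (v : V) : c • v = c.val • v := by
  conv_lhs => rw [← ZMod.natCast_zmod_val c]
  exact Nat.cast_smul_eq_nsmul (ZMod m) c.val v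

theorem m_nsmul_eq_zero (v : V) : m • v = 0 := by
  rw [← Nat.cast_smul_eq_nsmul (ZMod m) m v, ZMod.natCast_self, zero_smul]

variable (ι : V →+ JZero L)

theorem m_nsmul_map (v : V) : m • ι v = 0 := by
  rw [← map_nsmul, m_nsmul_eq_zero, map_zero]

theorem map_zmod_smul (c : ZMod m) (v : V) : ι (c • v) = c.val • ι v := by
  rw [zmod_smul_eq, map_nsmul]

end

section Main

variable {L p m : ℕ} [NeZero L] [NeZero m] {V : Type} [AddCommGroup V] [Module (ZMod m) V]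
  [DistribMulAction GQ V] [SMulCommClass GQ (ZMod m) V]
  (ι : V →+ JZero L) (hι : Function.Injective ι) (hιG : ∀ (g : GQ) (v : V), ι (g • v) = g • ι v)
  (hp : p.Prime) {j : ℕ} (hm : m = p ^ j) (S : Finset ℕ)
  (hS : ∀ r : ℕ, r.Prime → r ∣ L * p → r ∈ S) (a : ℕ → ℤ)
  (rbar : GQ →* M2 (ZMod p)) (hcont : GaloisFactorsThroughFiniteLevel rbar)
  (hfrob : ∀ r : ℕ, r.Prime → r ∉ S → ∀ A : ValuationSubring Qbar, A.LiesOverPrime r →
      ∀ φ : GQ, A.IsFrobeniusAt φ r →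
        (rbar φ).trace = ((a r : ℤ) : ZMod p) ∧ (rbar φ).det = ((r : ℕ) : ZMod p))

include hιG hp hm hS hcont hfrob in
/-- [SPEC-POLY] on `V`. -/
theorem exists_poly_spec_V (g : GQ) :
    ∃ (r : Nat.Primes) (Q : Polynomial ℤ), (r : ℕ) ∉ S ∧
      (rbar g).trace = ((Q.eval (a r) : ℤ) : ZMod p) ∧
      ∀ v : V, ι (g • v + chiM m g • g⁻¹ • v) = Polynomial.aeval (heckeOperatorBar L r) Q (ι v) := by
  obtain ⟨r, Q, hr, htr, hQ⟩ := exists_poly_spec (L := L) hp j S hS a rbar hcont hfrob g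
  refine ⟨r, Q, hr, htr, fun v => ?_⟩
  rw [map_add, map_zmod_smul, hιG, hιG]
  refine hQ _ (fun ζ hζ => ?_) _ (by rw [← hm]; exact m_nsmul_map ι v)
  rw [← hm] at hζ
  exact cycloChar_spec m g hζ

include hι hιG hp hm hS hcont hfrob in
/-- `g + χ(g) g⁻¹` commutes with `G_ℚ`. -/
theorem central (g h : GQ) (v : V) :
    h • (g • v + chiM m g • g⁻¹ • v) = g • h • v + chiM m g • g⁻¹ • h • v := by
  obtain ⟨r, Q, -, -, hQ⟩ := exists_poly_spec_V ι hιG hp hm S hS a rbar hcont hfrob g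
  apply hι
  rw [hιG, hQ, hQ, hιG]
  exact LinearMap.congr_fun (galJ_comm_aeval L h r Q) (ι v)

theorem hk_eq_aeval (r : Nat.Primes) :
    hk L a r = Polynomial.aeval (heckeOperatorBar L r) (Polynomial.X - Polynomial.C (a r)) := by
  rw [hk, map_sub, Polynomial.aeval_X, Polynomial.aeval_C, eq_intCast]

include hιG hp hm hS hcont hfrob in
/-- the lift `θ` of `tr rbar` : `g + χ(g) g⁻¹ - θ g` is nilpotent on `V`. -/
theorem exists_theta [Finite V]
    (hnil : ∀ r : Nat.Primes, (r : ℕ) ∉ S → ∀ v : V, ∃ n : ℕ, (hk L a r ^ n) (ι v) = 0)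
    (hι : Function.Injective ι) :
    ∃ θ : GQ → ℤ, (∀ g, (rbar g).trace = ((θ g : ℤ) : ZMod p)) ∧
      ∀ g, IsNilpotent (tOp V (chiM m) g -
        algebraMap (ZMod m) (Module.End (ZMod m) V) ((θ g : ℤ) : ZMod m)) := by
  choose r Q hr htr hQ using exists_poly_spec_V ι hιG hp hm S hS a rbar hcont hfrob
  refine ⟨fun g => (Q g).eval (a (r g)), htr, fun g => ?_⟩
  haveI : Module.Finite (ZMod m) V := Module.Finite.of_finite
  refine Module.End.isNilpotent_iff_of_finite.mpr fun v => ?_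
  obtain ⟨n, hn⟩ := hnil (r g) (hr g) v
  refine ⟨n, hι ?_⟩
  rw [map_zero]
  set f : Module.End (ZMod m) V := tOp V (chiM m) g -
    algebraMap (ZMod m) (Module.End (ZMod m) V) (((Q g).eval (a (r g)) : ℤ) : ZMod m) with hf
  set T := heckeOperatorBar L (r g) with hT
  obtain ⟨Q', hQ'⟩ := Polynomial.X_sub_C_dvd_sub_C_eval (a := a (r g)) (p := Q g)
  have h1 : ∀ w : V, ι (f w) = Polynomial.aeval T (Q g - Polynomial.C ((Q g).eval (a (r g)))) (ι w) := by
    intro w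
    rw [hf, LinearMap.sub_apply, tOp_apply, map_sub, hQ, Module.algebraMap_end_apply,
      Int.cast_smul_eq_zsmul, map_zsmul, map_sub, LinearMap.sub_apply, Polynomial.aeval_C,
      Module.algebraMap_end_apply]
  have h2 : ∀ (k : ℕ) (w : V), ι ((f ^ k) w) =
      Polynomial.aeval T ((Q g - Polynomial.C ((Q g).eval (a (r g)))) ^ k) (ι w) := by
    intro k
    induction k with
    | zero => intro w; simp
    | succ k ih =>
      intro w
      rw [pow_succ, Module.End.mul_apply, ih, h1, pow_succ, map_mul, Module.End.mul_apply]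
  have h3 : Polynomial.aeval T ((Polynomial.X - Polynomial.C (a (r g))) ^ n) = hk L a (r g) ^ n := by
    rw [map_pow, hk_eq_aeval]
  rw [h2, hQ', mul_pow, mul_comm, map_mul, Module.End.mul_apply, h3, hn, map_zero]

end Main

/-- an element of `ZMod (p^j)` which is non zero modulo `p` is a unit. -/
theorem isUnit_of_castHom_ne_zero {p m j : ℕ} (hp : p.Prime) (hm : m = p ^ j) (hpm : p ∣ m)
    (x : ZMod m) (hx : ZMod.castHom hpm (ZMod p) x ≠ 0) : IsUnit x := by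
  haveI : NeZero m := ⟨by rw [hm]; exact pow_ne_zero _ hp.ne_zero⟩
  rw [← ZMod.natCast_zmod_val x] at hx ⊢
  rw [map_natCast] at hx
  rw [ZMod.isUnit_iff_coprime]
  have h1 : Nat.Coprime x.val (p ^ j) := by
    refine Nat.Coprime.pow_right j ?_
    rw [Nat.coprime_comm, hp.coprime_iff_not_dvd]
    intro h
    exact hx ((ZMod.natCast_eq_zero_iff _ _).2 h)
  exact hm ▸ h1

/-- the reduction of the explicit matrix. -/
theorem map_rhoMat_eq {G Λ R Q k0 : Type*} [Group G] [CommRing Λ] [CommRing R] [CommRing Q]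
    [CommRing k0] [Algebra Λ R] (κ : R →+* Q) (ψ : k0 →+* Q) (red : Λ →+* k0)
    (hκ : ∀ x, κ (algebraMap Λ R x) = ψ (red x)) (t : G → R) (θ : G → Λ)
    (ht : ∀ g, κ (t g) = κ (algebraMap Λ R (θ g))) (i2 : Λ) (c₀ σ₀ τ₀ : G) (u : R) (u0 : k0)
    (hu : u * xF t (algebraMap Λ R i2) c₀ σ₀ τ₀ = 1)
    (hu0 : u0 * xF (fun g => red (θ g)) (red i2) c₀ σ₀ τ₀ = 1) (g : G) :
    (rhoMat t (algebraMap Λ R i2) c₀ σ₀ τ₀ u g).map κ =
      (rhoMat (fun g => red (θ g)) (red i2) c₀ σ₀ τ₀ u0 g).map ψ := by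
  rw [rhoMat_map, rhoMat_map]
  have h1 : (fun x => κ (t x)) = fun x => ψ (red (θ x)) := funext fun x => by rw [ht, hκ]
  have h2 : κ u = ψ u0 := by
    have e1 := congrArg κ hu
    have e2 := congrArg ψ hu0
    rw [map_mul, map_one, map_xF, h1, hκ] at e1
    rw [map_mul, map_one, map_xF] at e2
    calc κ u = κ u * (ψ u0 * xF (fun x => ψ (red (θ x))) (ψ (red i2)) c₀ σ₀ τ₀) := by
          rw [e2, mul_one]
      _ = ψ u0 * (κ u * xF (fun x => ψ (red (θ x))) (ψ (red i2)) c₀ σ₀ τ₀) := by ring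
      _ = ψ u0 := by rw [e1, mul_one]
  rw [h1, h2, hκ]

section Pkg

variable {L p m : ℕ} [NeZero L] [NeZero m] {V : Type} [AddCommGroup V] [Module (ZMod m) V]
  [DistribMulAction GQ V] [SMulCommClass GQ (ZMod m) V] [Finite V]

/-- **(RHO)** for a finite Galois module `V ↪ J₀(L)[m]`, `m = p^j`, `j ≥ 1`, inside the `θ`-part. -/
theorem exists_rho_tors (ι : V →+ JZero L) (hι : Function.Injective ι)
    (hιG : ∀ (g : GQ) (v : V), ι (g • v) = g • ι v)
    (hp : p.Prime) {j : ℕ} (hm : m = p ^ j) (hpm : p ∣ m) (S : Finset ℕ)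
    (hS : ∀ r : ℕ, r.Prime → r ∣ L * p → r ∈ S) (a : ℕ → ℤ)
    (hnil : ∀ r : Nat.Primes, (r : ℕ) ∉ S → ∀ v : V, ∃ n : ℕ, (hk L a r ^ n) (ι v) = 0)
    (rbar : GQ →* M2 (ZMod p)) (hcont : GaloisFactorsThroughFiniteLevel rbar)
    (hfrob : ∀ r : ℕ, r.Prime → r ∉ S → ∀ A : ValuationSubring Qbar, A.LiesOverPrime r →
      ∀ φ : GQ, A.IsFrobeniusAt φ r →
        (rbar φ).trace = ((a r : ℤ) : ZMod p) ∧ (rbar φ).det = ((r : ℕ) : ZMod p))
    {i20 u0 : ZMod p} (h20 : i20 * 2 = 1) {c₀ σ₀ τ₀ : GQ} (hc₀ : c₀ * c₀ = 1)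
    (hcc : chiM m c₀ = -1)
    (hu0 : u0 * xF (fun g => (rbar g).trace) i20 c₀ σ₀ τ₀ = 1) :
    ∃ (R : Type) (_ : CommRing R) (_ : Algebra (ZMod m) R) (_ : Module R V)
      (_ : IsScalarTower (ZMod m) R V) (_ : Finite R) (t : GQ → R) (ρ : GQ →* M2 R)
      (Φ : M2 R →ₐ[R] Module.End R V),
      (∀ (g : GQ) (v : V), t g • v = g • v + chiM m g • g⁻¹ • v) ∧
      Algebra.adjoin (ZMod m) (Set.range t) = ⊤ ∧
      (∀ x : R, (∀ v : V, x • v = 0) → x = 0) ∧
      (∀ g, (ρ g).trace = t g) ∧ (∀ g, (ρ g).det = algebraMap (ZMod m) R (chiM m g)) ∧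
      (∀ (g : GQ) (v : V), Φ (ρ g) v = g • v) ∧
      (∀ X : M2 R, (∀ v : V, Φ X v = 0) → X = 0) ∧
      (∃ θ : GQ → ℤ, (∀ g, (rbar g).trace = ((θ g : ℤ) : ZMod p)) ∧
        ∀ g, IsNilpotent (t g - ((θ g : ℤ) : R))) ∧
      (∀ (Q : Type) [CommRing Q] (κ : R →+* Q) (ψ : ZMod p →+* Q),
        (∀ x, IsNilpotent x → κ x = 0) → ∀ g,
          κ (t g) = ψ (rbar g).trace ∧
          (ρ g).map κ = (rhoMat (fun g => (rbar g).trace) i20 c₀ σ₀ τ₀ u0 g).map ψ) := by
  obtain ⟨θ, hθ, hθn⟩ := exists_theta ι hιG hp hm S hS a rbar hcont hfrob hnil hι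
  set red : ZMod m →+* ZMod p := ZMod.castHom hpm (ZMod p) with hred
  -- `1/2` in `ZMod m`
  have h2u : IsUnit (2 : ZMod m) := by
    refine isUnit_of_castHom_ne_zero hp hm hpm _ ?_
    rw [map_ofNat]
    intro h
    rw [h, mul_zero] at h20
    haveI : Fact p.Prime := ⟨hp⟩
    exact zero_ne_one h20
  obtain ⟨i2, hi2⟩ := h2u.exists_left_inv
  have hri2 : red i2 = i20 := by
    have e := congrArg red hi2
    rw [map_mul, map_one, map_ofNat] at e
    calc red i2 = red i2 * (i20 * 2) := by rw [h20, mul_one]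
      _ = i20 * (red i2 * 2) := by ring
      _ = i20 := by rw [e, mul_one]
  have hrθ : (fun g => red (((θ g : ℤ) : ZMod m))) = fun g => (rbar g).trace :=
    funext fun g => by rw [map_intCast, hθ]
  have hux : IsUnit (xF (fun g => ((θ g : ℤ) : ZMod m)) i2 c₀ σ₀ τ₀) := by
    refine isUnit_of_castHom_ne_zero hp hm hpm _ ?_
    rw [← hred, map_xF, hrθ, hri2]
    intro h
    rw [h, mul_zero] at hu0
    haveI : Fact p.Prime := ⟨hp⟩
    exact zero_ne_one hu0
  obtain ⟨R, iC, iA, iM, iT, t, u, ρ, Φ, h1, h2, h3, h4, h5, h6, h7, h8, h9, h10, h11⟩ :=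
    exists_rho_abs (V := V) (chiM m) (fun g => ((θ g : ℤ) : ZMod m))
      (central ι hι hιG hp hm S hS a rbar hcont hfrob) hθn hi2 hc₀ hcc hux
  refine ⟨R, iC, iA, iM, iT, h11 inferInstance, t, ρ, Φ, h1, h2, h3, h7, h8, h9, h10,
    ⟨θ, hθ, fun g => by have := h4 g; rwa [map_intCast] at this⟩, ?_⟩
  intro Q _ κ ψ hκ g
  have hκψ : ∀ x, κ (algebraMap (ZMod m) R x) = ψ (red x) := fun x =>
    RingHom.congr_fun (Subsingleton.elim (κ.comp (algebraMap (ZMod m) R)) (ψ.comp red)) x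
  have ht : ∀ g, κ (t g) = κ (algebraMap (ZMod m) R ((θ g : ℤ) : ZMod m)) := fun g => by
    rw [← sub_eq_zero, ← map_sub]
    exact hκ _ (h4 g)
  refine ⟨by rw [ht, hκψ, map_intCast, hθ], ?_⟩
  rw [h6]
  have := map_rhoMat_eq κ ψ red hκψ t (fun g => ((θ g : ℤ) : ZMod m)) ht i2 c₀ σ₀ τ₀ u u0 h5
    (by rw [hrθ, hri2]; exact hu0) g
  rw [this, hrθ, hri2]

end Pkg

end Fermat.Agent.RIB.Rho
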