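import Fermat.Agent.RIB.Star

/-!
# RIB / [RHO-DIAG] : diagonalisation at a Taylor-Wiles prime   (Mathlib + `RIB/Star` only)

`R` a local commutative ring all of whose non units are nilpotent (`hnil`; only used for Hensel and for the `p`-power order),
`Sg = ρ(σ)`, `Tu = ρ(τ)` (`σ` a Frobenius lift, `τ` a generator of the image of tame inertia at `l`), `l ≡ 1` in the residue
field, `Sg * Tu = Tu ^ l * Sg`, `Tu ≡ 1`, `det Tu = 1`, the characteristic polynomial of `Sg` is `≡ (X - a0)(X - b0)` with `a0 - b0`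
a unit.

* `exists_roots_quadratic` : Hensel for `X ^ 2 - t X + d`.
* `exists_diag` : `Sg * Q = Q * diag(A, B)`, `det Q` a unit.
* `offdiag_eq_zero` : `diag(A, B) * T = T ^ l * diag(A, B)`, `T ≡ 1`  ⟹  `T` is diagonal (Nakayama, no nilpotency needed).
* `exists_diag_tw` : `Sg = Q diag(A, B) Q'`, `Tu = Q diag(1 + y, 1 + y') Q'`, `(1 + y)(1 + y') = 1`, `(1 + y) ^ (l - 1) = 1`.
* `fixed_iff_of_diag` : `Φ Tu w = w ↔ y • w = 0`.
* `exists_tw_param` : (characteristic `p`, `l - 1 = p ^ ν u`, `p ∤ u`)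
  `∃ y ∈ m, y ^ (p ^ ν) = 0 ∧ ∀ w, Φ Tu w = w ↔ y • w = 0`.
* `tw_pow_eq_one` : (`p ∈ m`)  `Tu ^ (p ^ ν) = 1`.
-/

set_option autoImplicit false

namespace Fermat.Agent.RIB

open Matrix IsLocalRing Polynomial

variable {R : Type*} [CommRing R] [IsLocalRing R]

/-! ### Hensel for a quadratic polynomial -/

/-- Hensel's lemma for `X ^ 2 - t X + d` in a local ring whose maximal ideal consists of nilpotent elements. -/
theorem exists_roots_quadratic (hnil : ∀ z ∈ maximalIdeal R, IsNilpotent z) (t d a0 b0 : R)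
    (hu : IsUnit (a0 - b0)) (ht : t - (a0 + b0) ∈ maximalIdeal R)
    (hd : d - a0 * b0 ∈ maximalIdeal R) :
    ∃ A B : R, A - a0 ∈ maximalIdeal R ∧ B - b0 ∈ maximalIdeal R ∧ A + B = t ∧ A * B = d ∧
      IsUnit (A - B) := by
  have h1 : IsNilpotent (aeval a0 (X ^ 2 - C t * X + C d : R[X])) := by
    apply hnil
    have : aeval a0 (X ^ 2 - C t * X + C d : R[X])
        = -(t - (a0 + b0)) * a0 + (d - a0 * b0) := by
      simp only [map_add, map_sub, map_mul, map_pow, aeval_X, aeval_C, Algebra.algebraMap_self,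
        RingHom.id_apply]
      ring
    rw [this]
    exact Ideal.add_mem _ (Ideal.mul_mem_right _ _ (neg_mem ht)) hd
  have h2 : IsUnit (aeval a0 (derivative (X ^ 2 - C t * X + C d : R[X]))) := by
    have : aeval a0 (derivative (X ^ 2 - C t * X + C d : R[X]))
        = (a0 - b0) - (t - (a0 + b0)) := by
      simp only [derivative_X_pow, derivative_mul, derivative_C,
        derivative_X, map_add, map_sub, map_mul, aeval_X, aeval_C, Algebra.algebraMap_self,
        RingHom.id_apply, map_pow, map_natCast, map_zero, map_one]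
      ring
    rw [this, ← IsLocalRing.notMem_maximalIdeal]
    intro h
    exact (IsLocalRing.notMem_maximalIdeal.2 hu) (by simpa using Ideal.add_mem _ h ht)
  obtain ⟨A, ⟨hA1, hA2⟩, -⟩ := existsUnique_nilpotent_sub_and_aeval_eq_zero h1 h2
  have hA3 : A * A - t * A + d = 0 := by
    have : aeval A (X ^ 2 - C t * X + C d : R[X]) = A * A - t * A + d := by
      simp only [map_add, map_sub, map_mul, map_pow, aeval_X, aeval_C, Algebra.algebraMap_self,
        RingHom.id_apply]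
      ring
    rw [← this, hA2]
  have hAm : A - a0 ∈ maximalIdeal R := by
    rw [IsLocalRing.mem_maximalIdeal, mem_nonunits_iff]
    intro h
    have h' : IsNilpotent (A - a0) := by rw [← neg_sub]; exact hA1.neg
    exact h'.not_isUnit h
  refine ⟨A, t - A, hAm, ?_, by ring, by linear_combination -hA3, ?_⟩
  · have : t - A - b0 = (t - (a0 + b0)) - (A - a0) := by ring
    rw [this]
    exact Ideal.sub_mem _ ht hAm
  · rw [← IsLocalRing.notMem_maximalIdeal]
    intro h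
    apply IsLocalRing.notMem_maximalIdeal.2 hu
    have : a0 - b0 = (A - (t - A)) - (A - a0) - (A - a0) + (t - (a0 + b0)) := by ring
    rw [this]
    exact Ideal.add_mem _ (Ideal.sub_mem _ (Ideal.sub_mem _ h hAm) hAm) ht

/-! ### diagonalisation of a matrix with distinct eigenvalues -/

theorem exists_diag (Sg : Matrix (Fin 2) (Fin 2) R) (A B : R) (hAB : A + B = Sg.trace)
    (hd : A * B = Sg.det) (hu : IsUnit (A - B)) :
    ∃ Q : Matrix (Fin 2) (Fin 2) R, IsUnit Q.det ∧ Sg * Q = Q * !![A, 0; 0, B] := by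
  rw [Matrix.trace_fin_two] at hAB
  rw [Matrix.det_fin_two] at hd
  have hu' : IsUnit (B - A) := by rw [← neg_sub]; exact hu.neg
  by_cases h12 : IsUnit (Sg 0 1)
  · refine ⟨!![Sg 0 1, Sg 0 1; A - Sg 0 0, B - Sg 0 0], ?_, ?_⟩
    · rw [Matrix.det_fin_two_of]
      have : Sg 0 1 * (B - Sg 0 0) - Sg 0 1 * (A - Sg 0 0) = Sg 0 1 * (B - A) := by ring
      rw [this]
      exact h12.mul hu'
    · ext i j
      fin_cases i <;> fin_cases j <;>
        simp [Matrix.mul_apply, Fin.sum_univ_two]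
      · ring
      · ring
      · linear_combination hd - A * hAB
      · linear_combination hd - B * hAB
  by_cases h21 : IsUnit (Sg 1 0)
  · refine ⟨!![A - Sg 1 1, B - Sg 1 1; Sg 1 0, Sg 1 0], ?_, ?_⟩
    · rw [Matrix.det_fin_two_of]
      have : (A - Sg 1 1) * Sg 1 0 - (B - Sg 1 1) * Sg 1 0 = Sg 1 0 * (A - B) := by ring
      rw [this]
      exact h21.mul hu
    · ext i j
      fin_cases i <;> fin_cases j <;>
        simp [Matrix.mul_apply, Fin.sum_univ_two]
      · linear_combination hd - A * hAB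
      · linear_combination hd - B * hAB
      · ring
      · ring
  rw [← IsLocalRing.notMem_maximalIdeal, not_not] at h12 h21
  have hprod : (Sg 0 0 - A) * (Sg 0 0 - B) ∈ maximalIdeal R := by
    have : (Sg 0 0 - A) * (Sg 0 0 - B) = -(Sg 0 1 * Sg 1 0) := by
      linear_combination hd - Sg 0 0 * hAB
    rw [this]
    exact neg_mem (Ideal.mul_mem_right _ _ h12)
  rcases (Ideal.IsPrime.mem_or_mem (inferInstance : (maximalIdeal R).IsPrime) hprod) with h | h
  · -- `Sg 0 0 ≡ A`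
    refine ⟨!![A - Sg 1 1, Sg 0 1; Sg 1 0, B - Sg 0 0], ?_, ?_⟩
    · rw [Matrix.det_fin_two_of, ← IsLocalRing.notMem_maximalIdeal]
      intro h'
      have e : (A - B) * (B - A) = ((A - Sg 1 1) * (B - Sg 0 0) - Sg 0 1 * Sg 1 0)
          + Sg 0 1 * Sg 1 0 + (Sg 0 0 - A) * (2 * (A - B) + (Sg 0 0 - A)) := by
        have hB : Sg 1 1 = A + B - Sg 0 0 := by linear_combination -hAB
        rw [hB]
        ring
      apply IsLocalRing.notMem_maximalIdeal.2 (hu.mul hu')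
      rw [e]
      exact Ideal.add_mem _ (Ideal.add_mem _ h' (Ideal.mul_mem_right _ _ h12))
        (Ideal.mul_mem_right _ _ h)
    · ext i j
      fin_cases i <;> fin_cases j <;>
        simp [Matrix.mul_apply, Fin.sum_univ_two]
      · linear_combination hd - A * hAB
      · ring
      · ring
      · linear_combination hd - B * hAB
  · -- `Sg 0 0 ≡ B`
    refine ⟨!![Sg 0 1, B - Sg 1 1; A - Sg 0 0, Sg 1 0], ?_, ?_⟩
    · rw [Matrix.det_fin_two_of, ← IsLocalRing.notMem_maximalIdeal]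
      intro h'
      have e : (A - B) * (A - B) = (Sg 0 1 * Sg 1 0 - (B - Sg 1 1) * (A - Sg 0 0))
          - Sg 0 1 * Sg 1 0 + (Sg 0 0 - B) * (2 * (A - B) - (Sg 0 0 - B)) := by
        have hB : Sg 1 1 = A + B - Sg 0 0 := by linear_combination -hAB
        rw [hB]
        ring
      apply IsLocalRing.notMem_maximalIdeal.2 (hu.mul hu)
      rw [e]
      exact Ideal.add_mem _ (Ideal.sub_mem _ h' (Ideal.mul_mem_right _ _ h12))
        (Ideal.mul_mem_right _ _ h)
    · ext i j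
      fin_cases i <;> fin_cases j <;>
        simp [Matrix.mul_apply, Fin.sum_univ_two]
      · ring
      · linear_combination hd - B * hAB
      · linear_combination hd - A * hAB
      · ring


/-! ### a matrix `≡ 1` normalised by `diag(A, B)` is diagonal -/

theorem pow_offdiag (T : Matrix (Fin 2) (Fin 2) R) (h00 : T 0 0 - 1 ∈ maximalIdeal R)
    (h11 : T 1 1 - 1 ∈ maximalIdeal R) (h01 : T 0 1 ∈ maximalIdeal R)
    (h10 : T 1 0 ∈ maximalIdeal R) (n : ℕ) :
    (T ^ n) 0 0 - 1 ∈ maximalIdeal R ∧ (T ^ n) 1 1 - 1 ∈ maximalIdeal R ∧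
      (T ^ n) 0 1 - n * T 0 1 ∈ maximalIdeal R * Ideal.span {T 0 1, T 1 0} ∧
      (T ^ n) 1 0 - n * T 1 0 ∈ maximalIdeal R * Ideal.span {T 0 1, T 1 0} := by
  have hb : T 0 1 ∈ Ideal.span {T 0 1, T 1 0} := Ideal.subset_span (by simp)
  have hc : T 1 0 ∈ Ideal.span {T 0 1, T 1 0} := Ideal.subset_span (by simp)
  induction n with
  | zero => simp
  | succ n ih =>
    obtain ⟨i00, i11, i01, i10⟩ := ih
    rw [pow_succ]
    simp only [Matrix.mul_apply, Fin.sum_univ_two]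
    refine ⟨?_, ?_, ?_, ?_⟩
    · have : (T ^ n) 0 0 * T 0 0 + (T ^ n) 0 1 * T 1 0 - 1
          = ((T ^ n) 0 0 - 1) * T 0 0 + (T 0 0 - 1) + (T ^ n) 0 1 * T 1 0 := by ring
      rw [this]
      exact Ideal.add_mem _ (Ideal.add_mem _ (Ideal.mul_mem_right _ _ i00) h00)
        (Ideal.mul_mem_left _ _ h10)
    · have : (T ^ n) 1 0 * T 0 1 + (T ^ n) 1 1 * T 1 1 - 1
          = (T ^ n) 1 0 * T 0 1 + ((T ^ n) 1 1 - 1) * T 1 1 + (T 1 1 - 1) := by ring
      rw [this]
      exact Ideal.add_mem _ (Ideal.add_mem _ (Ideal.mul_mem_left _ _ h01)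
        (Ideal.mul_mem_right _ _ i11)) h11
    · have : (T ^ n) 0 0 * T 0 1 + (T ^ n) 0 1 * T 1 1 - ((n + 1 : ℕ) : R) * T 0 1
          = ((T ^ n) 0 0 - 1) * T 0 1 + ((T ^ n) 0 1 - n * T 0 1) * T 1 1
            + (T 1 1 - 1) * T 0 1 * n := by push_cast; ring
      rw [this]
      exact Ideal.add_mem _ (Ideal.add_mem _ (Ideal.mul_mem_mul i00 hb)
        (Ideal.mul_mem_right _ _ i01)) (Ideal.mul_mem_right _ _ (Ideal.mul_mem_mul h11 hb))
    · have : (T ^ n) 1 0 * T 0 0 + (T ^ n) 1 1 * T 1 0 - ((n + 1 : ℕ) : R) * T 1 0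
          = ((T ^ n) 1 1 - 1) * T 1 0 + ((T ^ n) 1 0 - n * T 1 0) * T 0 0
            + (T 0 0 - 1) * T 1 0 * n := by push_cast; ring
      rw [this]
      exact Ideal.add_mem _ (Ideal.add_mem _ (Ideal.mul_mem_mul i11 hc)
        (Ideal.mul_mem_right _ _ i10)) (Ideal.mul_mem_right _ _ (Ideal.mul_mem_mul h00 hc))

theorem offdiag_eq_zero (A B : R) (hu : IsUnit (A - B)) (l : ℕ) (hl : (l : R) - 1 ∈ maximalIdeal R)
    (T : Matrix (Fin 2) (Fin 2) R) (h00 : T 0 0 - 1 ∈ maximalIdeal R)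
    (h11 : T 1 1 - 1 ∈ maximalIdeal R) (h01 : T 0 1 ∈ maximalIdeal R)
    (h10 : T 1 0 ∈ maximalIdeal R) (hrel : !![A, 0; 0, B] * T = T ^ l * !![A, 0; 0, B]) :
    T 0 1 = 0 ∧ T 1 0 = 0 := by
  obtain ⟨-, -, p01, p10⟩ := pow_offdiag T h00 h11 h01 h10 l
  have r01 := congrFun (congrFun hrel 0) 1
  have r10 := congrFun (congrFun hrel 1) 0
  simp [Matrix.mul_apply, Fin.sum_univ_two] at r01 r10
  have u1 : IsUnit (A - l * B) := by
    rw [← IsLocalRing.notMem_maximalIdeal]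
    intro h
    apply IsLocalRing.notMem_maximalIdeal.2 hu
    have : A - B = (A - l * B) + ((l : R) - 1) * B := by ring
    rw [this]
    exact Ideal.add_mem _ h (Ideal.mul_mem_right _ _ hl)
  have u2 : IsUnit (B - l * A) := by
    rw [← IsLocalRing.notMem_maximalIdeal]
    intro h
    apply IsLocalRing.notMem_maximalIdeal.2 hu
    have : A - B = -(B - l * A) - ((l : R) - 1) * A := by ring
    rw [this]
    exact Ideal.sub_mem _ (neg_mem h) (Ideal.mul_mem_right _ _ hl)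
  have m01 : T 0 1 ∈ maximalIdeal R * Ideal.span {T 0 1, T 1 0} := by
    obtain ⟨v, hv⟩ := u1
    have : T 0 1 = (↑v⁻¹ : R) * (((T ^ l) 0 1 - l * T 0 1) * B) := by
      have e : ((T ^ l) 0 1 - l * T 0 1) * B = (v : R) * T 0 1 := by
        rw [hv]; linear_combination -r01
      rw [e, ← mul_assoc, Units.inv_mul, one_mul]
    have key := Ideal.mul_mem_left _ (↑v⁻¹ : R) (Ideal.mul_mem_right B _ p01)
    rwa [← this] at key
  have m10 : T 1 0 ∈ maximalIdeal R * Ideal.span {T 0 1, T 1 0} := by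
    obtain ⟨v, hv⟩ := u2
    have : T 1 0 = (↑v⁻¹ : R) * (((T ^ l) 1 0 - l * T 1 0) * A) := by
      have e : ((T ^ l) 1 0 - l * T 1 0) * A = (v : R) * T 1 0 := by
        rw [hv]; linear_combination -r10
      rw [e, ← mul_assoc, Units.inv_mul, one_mul]
    have key := Ideal.mul_mem_left _ (↑v⁻¹ : R) (Ideal.mul_mem_right A _ p10)
    rwa [← this] at key
  have hbot : Ideal.span {T 0 1, T 1 0} = (⊥ : Ideal R) := by
    refine Submodule.eq_bot_of_le_smul_of_le_jacobson_bot (maximalIdeal R) _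
      (Submodule.fg_span (Set.toFinite _)) ?_ (IsLocalRing.maximalIdeal_le_jacobson _)
    rw [smul_eq_mul, Ideal.span_le]
    rintro z (rfl | rfl)
    · exact m01
    · exact m10
  have hb : T 0 1 ∈ Ideal.span {T 0 1, T 1 0} := Ideal.subset_span (by simp)
  have hc : T 1 0 ∈ Ideal.span {T 0 1, T 1 0} := Ideal.subset_span (by simp)
  rw [hbot] at hb hc
  exact ⟨hb, hc⟩

/-! ### `1 + nilpotent` has `p`-power order -/

omit [IsLocalRing R] in
theorem exists_one_add_pow_eq_one (p : ℕ) (hp : p.Prime) (hpn : IsNilpotent (p : R)) (y : R)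
    (hy : IsNilpotent y) : ∃ a : ℕ, (1 + y) ^ (p ^ a) = 1 := by
  obtain ⟨a, ha⟩ := hy
  obtain ⟨b, hb⟩ := hpn
  obtain ⟨r, hr⟩ := exists_add_pow_prime_pow_eq hp (1 : R) y a
  have hya : y ^ (p ^ a) = 0 := pow_eq_zero_of_le (Nat.lt_pow_self hp.one_lt).le ha
  have h1 : (p : R) ∣ (1 + y) ^ (p ^ a) - 1 := by
    rw [hr, hya, one_pow]
    exact ⟨y * r, by ring⟩
  have h2 := dvd_sub_pow_of_dvd_sub h1 b
  rw [pow_succ, hb, zero_mul, zero_dvd_iff, one_pow, ← pow_mul, ← pow_add, sub_eq_zero] at h2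
  exact ⟨a + b, h2⟩


/-! ### the main statements -/

omit [IsLocalRing R] in
theorem entries_mul_mul_mem (I : Ideal R) (P X Q : Matrix (Fin 2) (Fin 2) R)
    (hX : ∀ i j, X i j ∈ I) (i j : Fin 2) : (P * X * Q) i j ∈ I := by
  simp only [Matrix.mul_apply]
  refine Ideal.sum_mem _ fun a _ => Ideal.mul_mem_right _ _ ?_
  exact Ideal.sum_mem _ fun b _ => Ideal.mul_mem_left _ _ (hX b a)

omit [IsLocalRing R] in
theorem conj_pow (Q Q' X : Matrix (Fin 2) (Fin 2) R) (h : Q * Q' = 1) (n : ℕ) :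
    (Q' * X * Q) ^ n * Q' = Q' * X ^ n := by
  induction n with
  | zero => simp
  | succ n ih =>
    rw [pow_succ', mul_assoc, ih, pow_succ', mul_assoc (Q' * X), ← mul_assoc Q, h, one_mul,
      mul_assoc]

/-- **diagonalisation at a Taylor-Wiles prime.** -/
theorem exists_diag_tw (hnil : ∀ z ∈ maximalIdeal R, IsNilpotent z)
    (Sg Tu : Matrix (Fin 2) (Fin 2) R) (l : ℕ) (hl : (l : R) - 1 ∈ maximalIdeal R)
    (hrel : Sg * Tu = Tu ^ l * Sg) (hTu : ∀ i j, (Tu - 1) i j ∈ maximalIdeal R)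
    (hdetT : Tu.det = 1) (hdetS : IsUnit Sg.det) (a0 b0 : R) (hu : IsUnit (a0 - b0))
    (htr : Sg.trace - (a0 + b0) ∈ maximalIdeal R) (hdet : Sg.det - a0 * b0 ∈ maximalIdeal R) :
    ∃ (y y' A B : R) (Q Q' : Matrix (Fin 2) (Fin 2) R), y ∈ maximalIdeal R ∧
      (1 + y) * (1 + y') = 1 ∧ A - a0 ∈ maximalIdeal R ∧ B - b0 ∈ maximalIdeal R ∧
      Q * Q' = 1 ∧ Q' * Q = 1 ∧ Sg = Q * !![A, 0; 0, B] * Q' ∧
      Tu = Q * !![1 + y, 0; 0, 1 + y'] * Q' ∧ (1 + y) ^ (l - 1) = 1 := by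
  obtain ⟨A, B, hA, hB, hAB, hABd, huAB⟩ :=
    exists_roots_quadratic hnil Sg.trace Sg.det a0 b0 hu htr hdet
  obtain ⟨Q, hQ, hSQ⟩ := exists_diag Sg A B hAB hABd huAB
  have hQQ' : Q * Q⁻¹ = 1 := Matrix.mul_nonsing_inv Q hQ
  have hQ'Q : Q⁻¹ * Q = 1 := Matrix.nonsing_inv_mul Q hQ
  set Q' := Q⁻¹ with hQ'def
  set T := Q' * Tu * Q with hT
  have hT1 : ∀ i j, (T - 1) i j ∈ maximalIdeal R := by
    have : T - 1 = Q' * (Tu - 1) * Q := by
      rw [mul_sub, sub_mul, mul_one, hQ'Q]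
    rw [this]
    exact entries_mul_mul_mem _ _ _ _ hTu
  have hD : !![A, 0; 0, B] = Q' * Sg * Q := by
    rw [mul_assoc, hSQ, ← mul_assoc, hQ'Q, one_mul]
  have hrelT : !![A, 0; 0, B] * T = T ^ l * !![A, 0; 0, B] := by
    rw [hD, hT, ← mul_assoc, ← mul_assoc ((Q' * Tu * Q) ^ l), ← mul_assoc ((Q' * Tu * Q) ^ l),
      conj_pow Q Q' Tu hQQ' l, mul_assoc (Q' * Sg), ← mul_assoc Q, hQQ', one_mul, mul_assoc Q' Sg,
      hrel, mul_assoc Q']
    simp only [mul_assoc]
  have t00 := hT1 0 0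
  have t01 := hT1 0 1
  have t10 := hT1 1 0
  have t11 := hT1 1 1
  simp only [Matrix.sub_apply, Matrix.one_apply_eq,
    Matrix.one_apply_ne (show (0 : Fin 2) ≠ 1 by decide),
    Matrix.one_apply_ne (show (1 : Fin 2) ≠ 0 by decide), sub_zero] at t00 t01 t10 t11
  obtain ⟨z01, z10⟩ := offdiag_eq_zero A B huAB l hl T t00 t11 t01 t10 hrelT
  have hTdet : T 0 0 * T 1 1 = 1 := by
    have h1 : T.det = 1 := by
      rw [hT, Matrix.det_mul, Matrix.det_mul, hdetT, mul_one, ← Matrix.det_mul, hQ'Q,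
        Matrix.det_one]
    rw [Matrix.det_fin_two, z01, zero_mul, sub_zero] at h1
    exact h1
  have hTshape : T = !![1 + (T 0 0 - 1), 0; 0, 1 + (T 1 1 - 1)] := by
    ext i j
    fin_cases i <;> fin_cases j <;> simp [z01, z10]
  have hpow : ∀ n : ℕ, (T ^ n) 0 0 = T 0 0 ^ n := by
    intro n
    induction n with
    | zero => simp
    | succ n ih =>
      rw [pow_succ, Matrix.mul_apply, Fin.sum_univ_two, z10, mul_zero, add_zero, ih, pow_succ]
  have hAu : IsUnit A := isUnit_of_mul_isUnit_left (hABd ▸ hdetS)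
  have hl0 : l ≠ 0 := by
    rintro rfl
    apply IsLocalRing.notMem_maximalIdeal.2 (isUnit_one (M := R)).neg
    simp at hl
  have r00 := congrFun (congrFun hrelT 0) 0
  simp [Matrix.mul_apply, Fin.sum_univ_two, hpow] at r00
  have hlast : T 0 0 ^ (l - 1) = 1 := by
    have h1 : T 0 0 ^ l = T 0 0 := by
      apply hAu.mul_left_cancel
      rw [r00, mul_comm]
    have h2 : T 0 0 ^ (l - 1) * T 0 0 = T 0 0 := by
      rw [← pow_succ, Nat.sub_add_cancel (Nat.one_le_iff_ne_zero.2 hl0), h1]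
    calc T 0 0 ^ (l - 1) = T 0 0 ^ (l - 1) * T 0 0 * T 1 1 := by rw [mul_assoc, hTdet, mul_one]
      _ = 1 := by rw [h2, hTdet]
  refine ⟨T 0 0 - 1, T 1 1 - 1, A, B, Q, Q', t00, ?_, hA, hB, hQQ', hQ'Q, ?_, ?_, ?_⟩
  · rw [add_sub_cancel, add_sub_cancel, hTdet]
  · rw [hD, ← mul_assoc, ← mul_assoc, hQQ', one_mul, mul_assoc, hQQ', mul_one]
  · rw [← hTshape, hT, ← mul_assoc, ← mul_assoc, hQQ', one_mul, mul_assoc, hQQ', mul_one]
  · rw [add_sub_cancel, hlast]

section fixed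

omit [IsLocalRing R]

variable {W : Type*} [AddCommGroup W] [Module R W]
  (Φ : Matrix (Fin 2) (Fin 2) R →ₐ[R] Module.End R W)

/-- `W ^ τ = W[y]`. -/
theorem fixed_iff_of_diag (Q Q' : Matrix (Fin 2) (Fin 2) R) (y y' : R) (hQ : Q * Q' = 1)
    (hQ' : Q' * Q = 1) (hyy : (1 + y) * (1 + y') = 1) (w : W) :
    Φ (Q * !![1 + y, 0; 0, 1 + y'] * Q') w = w ↔ y • w = 0 := by
  have hy' : y' = -(y * (1 + y')) := by linear_combination hyy
  have hy2 : y = -(y' * (1 + y)) := by linear_combination hyy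
  have hinj : ∀ v : W, Φ Q v = 0 → v = 0 := by
    intro v hv
    have : Φ (Q' * Q) v = 0 := by rw [map_mul, Module.End.mul_apply, hv, map_zero]
    rwa [hQ', map_one, Module.End.one_apply] at this
  have hinj' : ∀ v : W, Φ Q' v = 0 → v = 0 := by
    intro v hv
    have : Φ (Q * Q') v = 0 := by rw [map_mul, Module.End.mul_apply, hv, map_zero]
    rwa [hQ, map_one, Module.End.one_apply] at this
  have e : Φ (Q * !![1 + y, 0; 0, 1 + y'] * Q') w - w = Φ Q (Φ !![y, 0; 0, y'] (Φ Q' w)) := by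
    have : Q * !![1 + y, 0; 0, 1 + y'] * Q' - 1 = Q * !![y, 0; 0, y'] * Q' := by
      have h1 : !![1 + y, 0; 0, 1 + y'] = 1 + !![y, 0; 0, y'] := by
        ext i j
        fin_cases i <;> fin_cases j <;> simp
      rw [h1, mul_add, add_mul, mul_one, hQ, add_sub_cancel_left]
    rw [← Module.End.mul_apply, ← Module.End.mul_apply, ← map_mul, ← map_mul, ← this,
      map_sub, map_one, LinearMap.sub_apply, Module.End.one_apply]
  rw [← sub_eq_zero, e]
  constructor
  · intro h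
    have h1 := hinj _ h
    -- apply the matrix units
    have h11 : y • Φ (Matrix.single 0 0 1) (Φ Q' w) = 0 := by
      have : Matrix.single (0 : Fin 2) (0 : Fin 2) (1 : R) * !![y, 0; 0, y']
          = y • Matrix.single (0 : Fin 2) (0 : Fin 2) (1 : R) := by
        ext i j
        fin_cases i <;> fin_cases j <;> simp [Matrix.mul_apply, Matrix.single]
      rw [← LinearMap.smul_apply, ← map_smul, ← this, map_mul, Module.End.mul_apply, h1, map_zero]
    have h22 : y' • Φ (Matrix.single 1 1 1) (Φ Q' w) = 0 := by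
      have : Matrix.single (1 : Fin 2) (1 : Fin 2) (1 : R) * !![y, 0; 0, y']
          = y' • Matrix.single (1 : Fin 2) (1 : Fin 2) (1 : R) := by
        ext i j
        fin_cases i <;> fin_cases j <;> simp [Matrix.mul_apply, Matrix.single]
      rw [← LinearMap.smul_apply, ← map_smul, ← this, map_mul, Module.End.mul_apply, h1, map_zero]
    have h22' : y • Φ (Matrix.single 1 1 1) (Φ Q' w) = 0 := by
      rw [hy2, neg_smul, mul_comm, mul_smul, h22, smul_zero, neg_zero]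
    have hsum : (1 : Matrix (Fin 2) (Fin 2) R)
        = Matrix.single 0 0 1 + Matrix.single 1 1 1 := by
      ext i j
      fin_cases i <;> fin_cases j <;> simp [Matrix.single]
    have h3 : y • Φ Q' w = 0 := by
      have : Φ Q' w = Φ (Matrix.single 0 0 1) (Φ Q' w) + Φ (Matrix.single 1 1 1) (Φ Q' w) := by
        rw [← LinearMap.add_apply, ← map_add, ← hsum, map_one, Module.End.one_apply]
      rw [this, smul_add, h11, h22', add_zero]
    apply hinj'
    rw [map_smul, h3]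
  · intro h
    have h3 : y • Φ Q' w = 0 := by rw [← map_smul, h, map_zero]
    have : Φ !![y, 0; 0, y'] (Φ Q' w) = 0 := by
      refine map_apply_eq_zero_of_entries Φ _ fun i j => ?_
      fin_cases i <;> fin_cases j
      · simpa using h3
      · simp
      · simp
      · show y' • Φ Q' w = 0
        rw [hy', neg_smul, mul_comm, mul_smul, h3, smul_zero, neg_zero]
    rw [this, map_zero]

end fixed

/-- the order of the tame parameter : general form -/
theorem one_add_pow_eq_one_of (hnil : ∀ z ∈ maximalIdeal R, IsNilpotent z) (p : ℕ) (hp : p.Prime)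
    (hpm : (p : R) ∈ maximalIdeal R) {y : R} (hy : y ∈ maximalIdeal R) {l ν u : ℕ}
    (hlu : l - 1 = p ^ ν * u) (hpu : ¬ p ∣ u) (h : (1 + y) ^ (l - 1) = 1) :
    (1 + y) ^ (p ^ ν) = 1 := by
  obtain ⟨a, ha⟩ := exists_one_add_pow_eq_one p hp (hnil _ hpm) y (hnil _ hy)
  have h1 : ((1 + y) ^ (p ^ ν)) ^ u = 1 := by rw [← pow_mul, ← hlu, h]
  have h2 : ((1 + y) ^ (p ^ ν)) ^ (p ^ a) = 1 := by rw [← pow_mul, mul_comm, pow_mul, ha, one_pow]
  have hc : Nat.Coprime u (p ^ a) :=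
    Nat.Coprime.pow_right _ ((Nat.Prime.coprime_iff_not_dvd hp).2 hpu).symm
  exact (pow_eq_one_iff_of_coprime hc).1 ⟨h1, h2⟩

/-- the order of the tame parameter : characteristic `p` -/
theorem pow_eq_zero_of (hnil : ∀ z ∈ maximalIdeal R, IsNilpotent z) (p : ℕ) (hp : p.Prime)
    [CharP R p] {y : R} (hy : y ∈ maximalIdeal R) {l ν u : ℕ}
    (hlu : l - 1 = p ^ ν * u) (hpu : ¬ p ∣ u) (h : (1 + y) ^ (l - 1) = 1) :
    y ^ (p ^ ν) = 0 := by
  have := Fact.mk hp
  have h1 := one_add_pow_eq_one_of hnil p hp (by simp) hy hlu hpu h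
  rw [add_pow_char_pow, one_pow] at h1
  simpa using h1

/-- **the tame parameter at a Taylor-Wiles prime** (characteristic `p`). -/
theorem exists_tw_param {W : Type*} [AddCommGroup W] [Module R W]
    (Φ : Matrix (Fin 2) (Fin 2) R →ₐ[R] Module.End R W)
    (hnil : ∀ z ∈ maximalIdeal R, IsNilpotent z) (p : ℕ) (hp : p.Prime) [CharP R p]
    (Sg Tu : Matrix (Fin 2) (Fin 2) R) (l ν u : ℕ) (hlu : l - 1 = p ^ ν * u) (hpu : ¬ p ∣ u)
    (hl : (l : R) - 1 ∈ maximalIdeal R)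
    (hrel : Sg * Tu = Tu ^ l * Sg) (hTu : ∀ i j, (Tu - 1) i j ∈ maximalIdeal R)
    (hdetT : Tu.det = 1) (hdetS : IsUnit Sg.det) (a0 b0 : R) (hu : IsUnit (a0 - b0))
    (htr : Sg.trace - (a0 + b0) ∈ maximalIdeal R) (hdet : Sg.det - a0 * b0 ∈ maximalIdeal R) :
    ∃ y ∈ maximalIdeal R, y ^ (p ^ ν) = 0 ∧ ∀ w : W, Φ Tu w = w ↔ y • w = 0 := by
  obtain ⟨y, y', A, B, Q, Q', hy, hyy, -, -, hQ, hQ', -, hT, hpow⟩ :=
    exists_diag_tw hnil Sg Tu l hl hrel hTu hdetT hdetS a0 b0 hu htr hdet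
  refine ⟨y, hy, pow_eq_zero_of hnil p hp hy hlu hpu hpow, fun w => ?_⟩
  rw [hT]
  exact fixed_iff_of_diag Φ Q Q' y y' hQ hQ' hyy w

/-- `ρ(τ) ^ (p ^ ν) = 1` at a Taylor-Wiles prime (any residue characteristic `p` coefficient ring). -/
theorem tw_pow_eq_one (hnil : ∀ z ∈ maximalIdeal R, IsNilpotent z) (p : ℕ) (hp : p.Prime)
    (hpm : (p : R) ∈ maximalIdeal R)
    (Sg Tu : Matrix (Fin 2) (Fin 2) R) (l ν u : ℕ) (hlu : l - 1 = p ^ ν * u) (hpu : ¬ p ∣ u)
    (hl : (l : R) - 1 ∈ maximalIdeal R)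
    (hrel : Sg * Tu = Tu ^ l * Sg) (hTu : ∀ i j, (Tu - 1) i j ∈ maximalIdeal R)
    (hdetT : Tu.det = 1) (hdetS : IsUnit Sg.det) (a0 b0 : R) (hu : IsUnit (a0 - b0))
    (htr : Sg.trace - (a0 + b0) ∈ maximalIdeal R) (hdet : Sg.det - a0 * b0 ∈ maximalIdeal R) :
    Tu ^ (p ^ ν) = 1 := by
  obtain ⟨y, y', A, B, Q, Q', hy, hyy, -, -, hQ, hQ', -, hT, hpow⟩ :=
    exists_diag_tw hnil Sg Tu l hl hrel hTu hdetT hdetS a0 b0 hu htr hdet
  have h1 := one_add_pow_eq_one_of hnil p hp hpm hy hlu hpu hpow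
  have h2 : (1 + y') ^ (p ^ ν) = 1 := by
    have := congrArg (· ^ (p ^ ν)) hyy
    simpa [mul_pow, h1] using this
  have h3 : (!![1 + y, 0; 0, 1 + y'] : Matrix (Fin 2) (Fin 2) R) ^ (p ^ ν) = 1 := by
    have : (!![1 + y, 0; 0, 1 + y'] : Matrix (Fin 2) (Fin 2) R)
        = Matrix.diagonal ![1 + y, 1 + y'] := by
      ext i j
      fin_cases i <;> fin_cases j <;> simp
    rw [this, Matrix.diagonal_pow, ← Matrix.diagonal_one]
    congr 1
    ext i
    fin_cases i <;> simp [h1, h2]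
  have h4 := conj_pow Q' Q (!![1 + y, 0; 0, 1 + y']) hQ' (p ^ ν)
  rw [h3, mul_one, ← hT] at h4
  calc Tu ^ (p ^ ν) = Tu ^ (p ^ ν) * Q * Q' := by rw [mul_assoc, hQ, mul_one]
    _ = 1 := by rw [h4, hQ]

end Fermat.Agent.RIB
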