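import Fermat.Agent.RIB.Theta
import Fermat.Agent.RIB.Grow.Tau
import Fermat.Agent.GAL.ChebWire
import Fermat.Agent.GAL.PC.CycloPow
import Fermat.Agent.S36.Top.CardJ

/-!
# RIB / RHO / SPEC : `g + χ(g) g⁻¹` on `J₀(L)[p^j]` is a polynomial in ONE Hecke operator `T_r`, `r ∉ S`

**[SPEC-POLY]**  `rbar : G_ℚ → M₂(𝔽_p)` continuous with `tr rbar(Frob_r) = a r`, `det rbar(Frob_r) = r` for the primes `r ∉ S`
(`S ⊇` primes of `L p`).  For every `g ∈ G_ℚ` there are a prime `r ∉ S` and `Q ∈ ℤ[X]` with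

* `tr rbar(g) = Q(a r)` in `𝔽_p`;
* `g x + c • g⁻¹ x = Q(T_r) x` for all `x ∈ J₀(L)[p^j]` and every `c : ℕ` representing `χ(g)` modulo `p^j`.

PROOF.  `F :=` compositum of: a level of `rbar` (`hcont`), the levels `GAL.openStab L (p^j)` of the finitely many `x ∈ J₀(L)[p^j]`
(`S36.Top.card_torsion_JZero` gives finiteness), and `ℚ(μ_{p^j})` (or: a level of `GAL.cycloChar (p^j)`).
`GAL.genCheb F _ g S` : a prime `r ∉ S`, `A | r`, a Frobenius lift `τ`, `n : ℕ` with `g = τ^n` on `F`.  So `η := (τ^n)⁻¹ g` fixes `F`: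
`rbar g = rbar τ ^ n`, `g x = τ^n x`, `g⁻¹ x = τ^(-n) x` on `J₀(L)[p^j]` (which is `G_ℚ`-stable), `c ≡ r^n mod p^j`.
Dickson polynomials `D_0 = 2, D_1 = X, D_{n+2} = X D_{n+1} - r D_n`.  Eichler–Shimura `(SS.es_all L p).2` : `τ x + r τ⁻¹ x = T_r x` on `p`-power
torsion, `T_r` commutes with `τ` (`GAL.galHecke`), so by induction `τ^n x + r^n τ^(-n) x = D_n(T_r) x`.
For the matrix `M = rbar τ` : `M + (det M) M⁻¹ = tr M` (Cayley–Hamilton), same induction: `M^n + r^n M^(-n) = D_n(a r)`; take traces / or use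
`tr (M^(n+2)) = tr M tr (M^(n+1)) - det M tr (M^n)`.
-/

set_option autoImplicit false

open ModularCurve

namespace Fermat.Agent.RIB.Rho

open Fermat.Agent.GAL

local notation "Qbar" => AlgebraicClosure ℚ
local notation "GQ" => (AlgebraicClosure ℚ ≃ₐ[ℚ] AlgebraicClosure ℚ)

/-- Dickson polynomials `D_0 = 2, D_1 = X, D_{n+2} = X D_{n+1} - r D_n`. -/
noncomputable def dickZ (r : ℤ) : ℕ → Polynomial ℤ
  | 0 => 2
  | 1 => Polynomial.X
  | (n + 2) => Polynomial.X * dickZ r (n + 1) - Polynomial.C r * dickZ r n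

theorem dickZ_zero (r : ℤ) : dickZ r 0 = 2 := rfl
theorem dickZ_one (r : ℤ) : dickZ r 1 = Polynomial.X := rfl
theorem dickZ_add_two (r : ℤ) (n : ℕ) :
    dickZ r (n + 2) = Polynomial.X * dickZ r (n + 1) - Polynomial.C r * dickZ r n := rfl

/-- operator form: `T = a + r b` on `X`, `a b = b a = 1` ⟹ `D_n(T) = a^n + r^n b^n` on `X`. -/
theorem aeval_dickZ_apply {J : Type*} [AddCommGroup J] (T : Module.End ℤ J) (a b : J → J)
    (X : AddSubgroup J) (ha : ∀ x ∈ X, a x ∈ X) (hb : ∀ x ∈ X, b x ∈ X)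
    (hab : ∀ x, a (b x) = x) (hba : ∀ x, b (a x) = x) (r : ℕ)
    (hT : ∀ x ∈ X, T x = a x + r • b x) (n : ℕ) :
    ∀ x ∈ X, Polynomial.aeval T (dickZ (r : ℤ) n) x = a^[n] x + r ^ n • b^[n] x := by
  have hai : ∀ (n : ℕ), ∀ x ∈ X, a^[n] x ∈ X := by
    intro n
    induction n with
    | zero => intro x hx; exact hx
    | succ n ih => intro x hx; rw [Function.iterate_succ_apply']; exact ha _ (ih x hx)
  have hbi : ∀ (n : ℕ), ∀ x ∈ X, b^[n] x ∈ X := by
    intro n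
    induction n with
    | zero => intro x hx; exact hx
    | succ n ih => intro x hx; rw [Function.iterate_succ_apply']; exact hb _ (ih x hx)
  induction n using Nat.twoStepInduction with
  | zero =>
    intro x _
    rw [dickZ_zero, map_ofNat]
    simp only [Function.iterate_zero, id_eq, pow_zero, one_smul]
    rw [← two_smul ℕ x]
    show ((2 : Module.End ℤ J)) x = _
    rw [show (2 : Module.End ℤ J) = 1 + 1 by norm_num, LinearMap.add_apply, Module.End.one_apply,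
      two_smul]
  | one =>
    intro x hx
    rw [dickZ_one, Polynomial.aeval_X, hT x hx]
    simp
  | more n ih0 ih1 =>
    intro x hx
    rw [dickZ_add_two, map_sub, map_mul, map_mul, Polynomial.aeval_X, Polynomial.aeval_C,
      LinearMap.sub_apply, Module.End.mul_apply, Module.End.mul_apply, ih1 x hx, ih0 x hx,
      map_add, map_nsmul, hT _ (hai _ x hx), hT _ (hbi _ x hx)]
    have e1 : a (a^[n + 1] x) = a^[n + 2] x := by rw [← Function.iterate_succ_apply' a]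
    have e2 : b (a^[n + 1] x) = a^[n] x := by rw [Function.iterate_succ_apply' a, hba]
    have e3 : a (b^[n + 1] x) = b^[n] x := by rw [Function.iterate_succ_apply' b, hab]
    have e4 : b (b^[n + 1] x) = b^[n + 2] x := by rw [← Function.iterate_succ_apply' b]
    rw [e1, e2, e3, e4]
    have e5 : (algebraMap ℤ (Module.End ℤ J) (r : ℤ)) (a^[n] x + r ^ n • b^[n] x)
        = r • (a^[n] x + r ^ n • b^[n] x) := by
      rw [Module.algebraMap_end_apply, natCast_zsmul]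
    rw [e5]
    simp only [smul_add, smul_smul]
    rw [show r ^ (n + 1) * r = r ^ (n + 2) by ring, show r * r ^ n = r ^ (n + 1) by ring]
    abel

/-- matrix form -/
theorem trace_pow_eq_dickZ {R : Type*} [CommRing R] (M : Matrix (Fin 2) (Fin 2) R) (a r : ℤ)
    (htr : M.trace = (a : R)) (hdet : M.det = (r : R)) (n : ℕ) :
    (M ^ n).trace = (((dickZ r n).eval a : ℤ) : R) := by
  have hCH : M ^ 2 = M.trace • M - M.det • (1 : Matrix (Fin 2) (Fin 2) R) := by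
    ext i j
    fin_cases i <;> fin_cases j <;>
      simp [pow_two, Matrix.mul_apply, Fin.sum_univ_two, Matrix.trace_fin_two,
        Matrix.det_fin_two] <;> ring
  induction n using Nat.twoStepInduction with
  | zero =>
    rw [pow_zero, dickZ_zero, Matrix.trace_one]
    simp
  | one =>
    rw [pow_one, dickZ_one, Polynomial.eval_X, htr]
  | more n ih0 ih1 =>
    rw [dickZ_add_two, Polynomial.eval_sub, Polynomial.eval_mul, Polynomial.eval_mul,
      Polynomial.eval_X, Polynomial.eval_C, Int.cast_sub, Int.cast_mul, Int.cast_mul, ← ih0, ← ih1,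
      ← htr, ← hdet, pow_add, hCH, mul_sub, Matrix.trace_sub, mul_smul_comm, mul_smul_comm,
      Matrix.trace_smul, Matrix.trace_smul, mul_one, ← pow_succ, smul_eq_mul, smul_eq_mul]

theorem nsmul_smul_eq_zero_aux {G J : Type*} [Group G] [AddCommGroup J] [DistribMulAction G J]
    (σ : G) (k : ℕ) {x : J} (h : k • x = 0) : k • (σ • x) = 0 := by
  rw [← smul_comm σ k x, h, smul_zero]

/-- **[SPEC-POLY]** -/
theorem exists_poly_spec {L p : ℕ} [NeZero L] (hp : p.Prime) (j : ℕ) (S : Finset ℕ)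
    (hS : ∀ r : ℕ, r.Prime → r ∣ L * p → r ∈ S) (a : ℕ → ℤ)
    (rbar : GQ →* Matrix (Fin 2) (Fin 2) (ZMod p)) (hcont : GaloisFactorsThroughFiniteLevel rbar)
    (hfrob : ∀ r : ℕ, r.Prime → r ∉ S → ∀ A : ValuationSubring Qbar, A.LiesOverPrime r →
      ∀ φ : GQ, A.IsFrobeniusAt φ r →
        (rbar φ).trace = ((a r : ℤ) : ZMod p) ∧ (rbar φ).det = ((r : ℕ) : ZMod p))
    (g : GQ) :
    ∃ (r : Nat.Primes) (Q : Polynomial ℤ), (r : ℕ) ∉ S ∧
      (rbar g).trace = ((Q.eval (a r) : ℤ) : ZMod p) ∧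
      ∀ c : ℕ, (∀ ζ : Qbar, ζ ^ (p ^ j) = 1 → g ζ = ζ ^ c) →
        ∀ x : JZero L, p ^ j • x = 0 →
          g • x + c • g⁻¹ • x = Polynomial.aeval (heckeOperatorBar L r) Q x := by
  have hm : p ^ j ≠ 0 := pow_ne_zero _ hp.ne_zero
  have : NeZero (p ^ j) := ⟨hm⟩
  obtain ⟨F₁, hF₁, h₁⟩ := hcont
  obtain ⟨F₂, hF₂, h₂⟩ := exists_level_torsion L (p ^ j) hm
  obtain ⟨F₃, hF₃, h₃⟩ := cycloChar_finiteLevel (p ^ j)
  have hF12 : FiniteDimensional ℚ (F₁ ⊔ F₂ : IntermediateField ℚ Qbar) :=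
    IntermediateField.finiteDimensional_sup F₁ F₂
  have hF : FiniteDimensional ℚ (F₁ ⊔ F₂ ⊔ F₃ : IntermediateField ℚ Qbar) :=
    IntermediateField.finiteDimensional_sup _ F₃
  obtain ⟨r, A, τ, n, hr, hrS, hA, hτ, hg⟩ := genCheb (F₁ ⊔ F₂ ⊔ F₃) hF g S
  have hrLp : ¬ r ∣ L * p := fun h => hrS (hS r hr h)
  -- `η`
  set η : GQ := (τ ^ n)⁻¹ * g with hη
  have hgη : g = τ ^ n * η := by rw [hη, mul_inv_cancel_left]
  have hηF : ∀ y ∈ (F₁ ⊔ F₂ ⊔ F₃ : IntermediateField ℚ Qbar), η y = y := by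
    intro y hy
    rw [hη, AlgEquiv.mul_apply, hg y hy]
    exact (τ ^ n).symm_apply_apply y
  have hη1 : rbar η = 1 := h₁ η fun y hy =>
    hηF y ((le_sup_left : F₁ ⊔ F₂ ≤ F₁ ⊔ F₂ ⊔ F₃) ((le_sup_left : F₁ ≤ F₁ ⊔ F₂) hy))
  have hη2 : ∀ x : JZero L, p ^ j • x = 0 → η • x = x := h₂ η fun y hy =>
    hηF y ((le_sup_left : F₁ ⊔ F₂ ≤ F₁ ⊔ F₂ ⊔ F₃) ((le_sup_right : F₂ ≤ F₁ ⊔ F₂) hy))
  have hη3 : cycloChar (p ^ j) η = 1 := h₃ η fun y hy =>
    hηF y ((le_sup_right : F₃ ≤ F₁ ⊔ F₂ ⊔ F₃) hy)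
  obtain ⟨htr, hdet⟩ := hfrob r hr hrS A hA τ hτ
  refine ⟨⟨r, hr⟩, dickZ (r : ℤ) n, hrS, ?_, ?_⟩
  · rw [hgη, map_mul, hη1, mul_one, map_pow]
    exact trace_pow_eq_dickZ (rbar τ) (a r) (r : ℤ) htr (by rw [hdet]; simp) n
  · intro c hc x hx
    -- the torsion subgroup
    let X : AddSubgroup (JZero L) := (nsmulAddMonoidHom (p ^ j) : JZero L →+ JZero L).ker
    have hXs : ∀ (σ : GQ), ∀ u ∈ X, σ • u ∈ X := fun σ u hu =>
      nsmul_smul_eq_zero_aux σ (p ^ j) (show p ^ j • u = 0 from hu)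
    have key := aeval_dickZ_apply (heckeOperatorBar L ⟨r, hr⟩) (fun u => τ • u) (fun u => τ⁻¹ • u) X
      (fun u hu => hXs τ u hu) (fun u hu => hXs τ⁻¹ u hu) (fun u => smul_inv_smul τ u)
      (fun u => inv_smul_smul τ u) r
      (fun u hu => SS.hecke_eq_frob' (SS.es_all L p).2 ⟨r, hr⟩ hrLp hA hτ u ⟨j, hu⟩) n x hx
    rw [key]
    have i1 : (fun u : JZero L => τ • u)^[n] x = τ ^ n • x := by
      rw [smul_iterate_apply]
    have i2 : (fun u : JZero L => τ⁻¹ • u)^[n] x = (τ ^ n)⁻¹ • x := by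
      rw [smul_iterate_apply, inv_pow]
    rw [i1, i2]
    have g1 : g • x = τ ^ n • x := by rw [hgη, mul_smul, hη2 x hx]
    have g2 : g⁻¹ • x = (τ ^ n)⁻¹ • x := by
      have h' : η • ((τ ^ n)⁻¹ • x) = (τ ^ n)⁻¹ • x := hη2 _ (hXs _ x hx)
      rw [hgη, mul_inv_rev, mul_smul]
      rw [inv_smul_eq_iff, h']
    rw [g1, g2]
    congr 1
    -- `c ≡ r ^ n`
    obtain ⟨ζ, hζ⟩ := exists_primitiveRoot_Zbar (p ^ j)
    have c1 : (cycloChar (p ^ j) g : ZMod (p ^ j)) = c :=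
      cycloChar_eq_of_primitiveRoot (p ^ j) g hζ (hc _ hζ.pow_eq_one)
    have hcop : Nat.Coprime r (p ^ j) := by
      apply Nat.Coprime.pow_right
      rw [Nat.coprime_primes hr hp]
      rintro rfl
      exact hrLp (Dvd.intro_left L rfl)
    have c2 : (cycloChar (p ^ j) τ : ZMod (p ^ j)) = r :=
      PC.cycloChar_of_isFrobeniusAt' (p ^ j) hr hcop hA hτ
    have c3 : ((c : ℕ) : ZMod (p ^ j)) = ((r ^ n : ℕ) : ZMod (p ^ j)) := by
      rw [← c1, hgη, map_mul, hη3, mul_one, map_pow, Units.val_pow_eq_pow_val, c2, Nat.cast_pow]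
    have c4 : c ≡ r ^ n [MOD p ^ j] := (ZMod.natCast_eq_natCast_iff _ _ _).1 c3
    have hy : p ^ j • ((τ ^ n)⁻¹ • x) = 0 := hXs _ x hx
    rw [nsmul_eq_mod_nsmul c hy, nsmul_eq_mod_nsmul (r ^ n) hy, c4]

end Fermat.Agent.RIB.Rho
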