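import Fermat.Agent.RIB.Rho.Spec
import Fermat.Agent.RIB.Ctrl.ThetaAbs
import Fermat.Agent.S54.Frobenius
import Fermat.Agent.RIB.Main.Ctx

/-!
# RIB / RHO / TrNil : `g + χ(g) g⁻¹ - tr rbar(g)` is nilpotent on the `θ`-part   (no `ρ` needed)

Everything here is a corollary of **[SPEC-POLY]** (`Rho/Spec.lean`, `exists_poly_spec`).

* `trOp_sub_pow_eq_zero` : `x ∈ thetaPart L p S θ`, `p^j x = 0`, `g ζ = ζ^c` on `μ_{p^j}`, `tr rbar(g) = a` in `𝔽_p`
  ⟹ `∃ N, (g + c g⁻¹ - a)^N x = 0`.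
* `frobP_nil` : `nilX`, `nilY` of (CTRL) (`ctrl_final`), at EVERY level `L` (whether `l ∣ L` or not).
* `hecke_sub_nil` : `(T_l - θ l)^N x = 0` on the `θ`-part also for the primes `l ∈ S`, `l ∉ T`, `l ∤ L p`.
* `unit_of_disc` : (UNIT) `(l+1)² - T_l²` is injective on `W(L)`.
* `inertia_unip` : `τ ∈ I_l` is unipotent on the `θ`-part.
-/

set_option autoImplicit false
set_option linter.unusedSectionVars false

noncomputable section

open AlgebraicCurve ModularCurve Polynomial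

namespace Fermat.Agent.RIB.TrNil

open Fermat.Agent.GAL Fermat.Agent.GAL.PC

local notation "Qbar" => AlgebraicClosure ℚ
local notation "GQ" => (AlgebraicClosure ℚ ≃ₐ[ℚ] AlgebraicClosure ℚ)

/-! ### abstract lemmas -/

section Abs

variable {J : Type*} [AddCommGroup J]

/-- the ideal of the polynomials `f` with `f(T) x = 0`. -/
def annPoly (T : Module.End ℤ J) (x : J) : Ideal ℤ[X] where
  carrier := {f | aeval T f x = 0}
  add_mem' := by
    intro a b ha hb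
    show aeval T (a + b) x = 0
    rw [map_add, LinearMap.add_apply, show aeval T a x = 0 from ha, show aeval T b x = 0 from hb,
      add_zero]
  zero_mem' := by
    show aeval T (0 : ℤ[X]) x = 0
    rw [map_zero, LinearMap.zero_apply]
  smul_mem' := by
    intro c f hf
    show aeval T (c * f) x = 0
    rw [map_mul, Module.End.mul_apply, show aeval T f x = 0 from hf, map_zero]

theorem mem_annPoly {T : Module.End ℤ J} {x : J} {f : ℤ[X]} :
    f ∈ annPoly T x ↔ aeval T f x = 0 := Iff.rfl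

/-- two operators which agree on a subgroup stable under the second one have the same powers on it -/
theorem pow_apply_eq_of_eqOn (X : AddSubgroup J) (A B : Module.End ℤ J)
    (hAB : ∀ y ∈ X, A y = B y) (hB : ∀ y ∈ X, B y ∈ X) (N : ℕ) :
    ∀ y ∈ X, (A ^ N) y = (B ^ N) y := by
  induction N with
  | zero => intro y _; rfl
  | succ N ih =>
    intro y hy
    rw [pow_succ, pow_succ, Module.End.mul_apply, Module.End.mul_apply, hAB y hy, ih _ (hB y hy)]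

/-- `(T - b)^m x = 0`, `p^j x = 0`, `p ∣ Q(b) - a` ⟹ `(Q(T) - a)^(m+j) x = 0`. -/
theorem aeval_sub_pow_eq_zero (T : Module.End ℤ J) (x : J) (p j m : ℕ) (a b : ℤ) (Q : ℤ[X])
    (hx : p ^ j • x = 0) (hm : ((T - (b : Module.End ℤ J)) ^ m) x = 0)
    (hQ : (p : ℤ) ∣ Q.eval b - a) : (Q - C a) ^ (m + j) ∈ annPoly T x := by
  obtain ⟨Q₁, hQ₁⟩ := X_sub_C_dvd_sub_C_eval (a := b) (p := Q)
  obtain ⟨d, hd⟩ := hQ
  have e : Q - C a = (X - C b) * Q₁ + C ((p : ℤ) * d) := by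
    rw [← hQ₁, ← hd, C_sub]; ring
  rw [e]
  refine (annPoly T x).add_pow_mem_of_pow_mem_of_le (m := m) (n := j) ?_ ?_ (Nat.le_succ _)
  · rw [mul_pow, mul_comm]
    refine Ideal.mul_mem_left _ _ ?_
    rw [mem_annPoly, map_pow, map_sub, aeval_X, aeval_C]
    exact hm
  · rw [C_mul, mul_pow, mul_comm]
    refine Ideal.mul_mem_left _ _ ?_
    rw [mem_annPoly, map_pow, aeval_C]
    have : (algebraMap ℤ (Module.End ℤ J) (p : ℤ)) ^ j = ((p ^ j : ℕ) : Module.End ℤ J) := by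
      simp
    rw [this, Module.End.natCast_apply, hx]

end Abs

/-! ### the trace operator -/

section Tr

variable {G : Type*} [Group G] (J : Type*) [AddCommGroup J] [DistribMulAction G J]

/-- `g + c g⁻¹` -/
def trOp (g : G) (c : ℤ) : Module.End ℤ J := actEnd J g + c • actEnd J g⁻¹

variable {J}

theorem trOp_apply (g : G) (c : ℤ) (x : J) : trOp J g c x = g • x + c • g⁻¹ • x := rfl

theorem trOp_smul_comm (g : G) (c : ℤ) (x : J) : trOp J g c (g • x) = g • trOp J g c x := by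
  rw [trOp_apply, trOp_apply, smul_add, smul_zsmul_comm', inv_smul_smul, smul_inv_smul]

/-- `(g + l g⁻¹ - a)^n x = 0` ⟹ `(g² - a g + l)^n x = 0`. -/
theorem frobP_pow_eq_zero_of_trOp (s : G) (a l : ℤ) (n : ℕ) (x : J)
    (hn : ((trOp J s l - (a : Module.End ℤ J)) ^ n) x = 0) : (frobP J s a l ^ n) x = 0 := by
  refine frobP_pow_eq_zero s (trOp J s l) (trOp_smul_comm s l) a l (fun y => ?_) n x ?_
  · rw [trOp_apply, inv_smul_smul]; abel
  · have : (a • 1 : Module.End ℤ J) = (a : Module.End ℤ J) := by simp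
    rw [this]; exact hn

/-- `(g + g⁻¹ - 2)^n x = 0` ⟹ `(g - 1)^(2n) x = 0`. -/
theorem sub_one_pow_eq_zero_of_trOp (g : G) (n : ℕ) (x : J)
    (hn : ((trOp J g 1 - ((2 : ℤ) : Module.End ℤ J)) ^ n) x = 0) :
    ((actEnd J g - 1) ^ (2 * n)) x = 0 := by
  have hgi : actEnd J g * actEnd J g⁻¹ = 1 := by
    apply LinearMap.ext; intro y
    simp [Module.End.mul_apply]
  have hig : actEnd J g⁻¹ * actEnd J g = 1 := by
    apply LinearMap.ext; intro y
    simp [Module.End.mul_apply]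
  have e : (actEnd J g - 1) ^ 2 = actEnd J g * (trOp J g 1 - ((2 : ℤ) : Module.End ℤ J)) := by
    rw [trOp, one_smul, mul_sub, mul_add, hgi]
    push_cast
    noncomm_ring
  have hc : Commute (actEnd J g) (trOp J g 1 - ((2 : ℤ) : Module.End ℤ J)) := by
    have h1 : Commute (actEnd J g) (actEnd J g⁻¹) := by rw [Commute, SemiconjBy, hgi, hig]
    rw [trOp, one_smul]
    exact ((Commute.refl _).add_right h1).sub_right (Int.cast_commute _ _).symm
  rw [pow_mul, e, hc.mul_pow, Module.End.mul_apply, hn, map_zero]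

end Tr

/-! ### roots of unity -/

theorem frob_root_pow {l m : ℕ} [NeZero m] (hl : l.Prime) (hlm : Nat.Coprime l m)
    {A : ValuationSubring Qbar} (hA : A.LiesOverPrime l) {s : GQ} (hs : A.IsFrobeniusAt s l)
    (ζ : Qbar) (hζ : ζ ^ m = 1) : s ζ = ζ ^ l := by
  rw [cycloChar_spec m s hζ, cycloChar_of_isFrobeniusAt' m hl hlm hA hs, ZMod.val_natCast,
    ← pow_eq_pow_mod l hζ]

theorem inertia_root_pow {l m : ℕ} [NeZero m] (hl : l.Prime) (hlm : Nat.Coprime l m)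
    {A : ValuationSubring Qbar} (hA : A.LiesOverPrime l) {τ : GQ} (hτ : τ ∈ A.inertiaSubgroupIn ℚ)
    (ζ : Qbar) (hζ : ζ ^ m = 1) : τ ζ = ζ ^ 1 := by
  have h := cycloChar_spec m τ hζ
  rw [cycloChar_of_mem_inertia' m hl hlm hA hτ, Units.val_one] at h
  rw [h, pow_one]
  rcases Nat.lt_or_ge 1 m with h1 | h1
  · have : Fact (1 < m) := ⟨h1⟩
    rw [ZMod.val_one, pow_one]
  · have hm : m = 1 := le_antisymm h1 (Nat.pos_of_ne_zero (NeZero.ne m))
    subst hm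
    rw [pow_one] at hζ
    rw [hζ, one_pow]

/-! ### the concrete statements -/

section Conc

variable {L p : ℕ} [NeZero L]

/-- the `p^j`-torsion as a subgroup -/
def torsJ (L m : ℕ) [NeZero L] : AddSubgroup (JZero L) :=
  (nsmulAddMonoidHom m : JZero L →+ JZero L).ker

theorem mem_torsJ {m : ℕ} {x : JZero L} : x ∈ torsJ L m ↔ m • x = 0 := Iff.rfl

theorem end_mem_torsJ {m : ℕ} (B : Module.End ℤ (JZero L)) {x : JZero L} (hx : x ∈ torsJ L m) :
    B x ∈ torsJ L m := by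
  rw [mem_torsJ] at hx ⊢
  rw [← map_nsmul, hx, map_zero]

/-- **the trace operator is `tr rbar` up to a nilpotent** on the `θ`-part. -/
theorem trOp_sub_pow_eq_zero (hp : p.Prime) (S : Finset ℕ)
    (hS : ∀ r : ℕ, r.Prime → r ∣ L * p → r ∈ S) (θ : ℕ → ℤ)
    (rbar : GQ →* Matrix (Fin 2) (Fin 2) (ZMod p)) (hcont : GaloisFactorsThroughFiniteLevel rbar)
    (hfrob : ∀ r : ℕ, r.Prime → r ∉ S → ∀ A : ValuationSubring Qbar, A.LiesOverPrime r →
      ∀ φ : GQ, A.IsFrobeniusAt φ r →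
        (rbar φ).trace = ((θ r : ℤ) : ZMod p) ∧ (rbar φ).det = ((r : ℕ) : ZMod p))
    (g : GQ) (a : ℤ) (ha : (rbar g).trace = (a : ZMod p))
    {x : JZero L} (hx : x ∈ thetaPart L p (↑S : Set ℕ) θ) (j : ℕ) (hj : p ^ j • x = 0) (c : ℕ)
    (hc : ∀ ζ : Qbar, ζ ^ (p ^ j) = 1 → g ζ = ζ ^ c) :
    ∃ N : ℕ, ((trOp (JZero L) g c - (a : Module.End ℤ (JZero L))) ^ N) x = 0 := by
  obtain ⟨r, Q, hrS, htr, hQ⟩ := Rho.exists_poly_spec hp j S hS θ rbar hcont hfrob g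
  obtain ⟨m, hm⟩ := hx.2 r (by simpa using hrS)
  have hdiv : (p : ℤ) ∣ Q.eval (θ r) - a := by
    rw [ha] at htr
    exact (ZMod.intCast_eq_intCast_iff_dvd_sub a (Q.eval (θ r)) p).1 htr
  have key := aeval_sub_pow_eq_zero (heckeOperatorBar L r) x p j m a (θ r) Q hj hm hdiv
  refine ⟨m + j, ?_⟩
  rw [pow_apply_eq_of_eqOn (torsJ L (p ^ j)) (trOp (JZero L) g c - (a : Module.End ℤ (JZero L)))
    (aeval (heckeOperatorBar L r) (Q - C a)) ?_ (fun y hy => end_mem_torsJ _ hy) (m + j) x hj,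
    ← map_pow]
  · exact key
  · intro y hy
    rw [LinearMap.sub_apply, trOp_apply, map_sub, aeval_C, LinearMap.sub_apply, ← hQ c hc y hy,
      natCast_zsmul]
    rfl

variable (hp : p.Prime) (T S : Finset ℕ) (hTS : T ⊆ S)
    (hS : ∀ r : ℕ, r.Prime → r ∣ L * p → r ∈ S) (θ : ℕ → ℤ)
    (rbar : GQ →* Matrix (Fin 2) (Fin 2) (ZMod p)) (hcont : GaloisFactorsThroughFiniteLevel rbar)
    (hfrob : ∀ r : ℕ, r.Prime → r ∉ T → ∀ A : ValuationSubring Qbar, A.LiesOverPrime r →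
      ∀ φ : GQ, A.IsFrobeniusAt φ r →
        (rbar φ).trace = ((θ r : ℤ) : ZMod p) ∧ (rbar φ).det = ((r : ℕ) : ZMod p))

include hp hTS hS hcont hfrob

/-- `(s + l s⁻¹ - θ l)^N x = 0` for a Frobenius `s` at `l ∉ T`, `l ≠ p` (`l ∣ L` allowed). -/
theorem trOp_frob_nil {l : ℕ} (hl : l.Prime) (hlp : l ≠ p) (hlT : l ∉ T)
    {A : ValuationSubring Qbar} (hA : A.LiesOverPrime l) {s : GQ} (hs : A.IsFrobeniusAt s l)
    {x : JZero L} (hx : x ∈ thetaPart L p (↑S : Set ℕ) θ) :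
    ∃ N : ℕ, ((trOp (JZero L) s (l : ℕ) - ((θ l : ℤ) : Module.End ℤ (JZero L))) ^ N) x = 0 := by
  obtain ⟨j, hj⟩ := hx.1
  have : NeZero (p ^ j) := ⟨pow_ne_zero _ hp.ne_zero⟩
  exact trOp_sub_pow_eq_zero hp S hS θ rbar hcont
    (fun r hr hrS => hfrob r hr fun h => hrS (hTS h)) s (θ l) (hfrob l hl hlT A hA s hs).1 hx j hj l
    (frob_root_pow hl (Nat.Coprime.pow_right _ ((Nat.coprime_primes hl hp).2 hlp)) hA hs)

/-- **`nilX`, `nilY` of (CTRL)** : `(s² - θ(l) s + l)^N x = 0` on the `θ`-part of ANY level. -/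
theorem frobP_nil {l : ℕ} (hl : l.Prime) (hlp : l ≠ p) (hlT : l ∉ T)
    {A : ValuationSubring Qbar} (hA : A.LiesOverPrime l) {s : GQ} (hs : A.IsFrobeniusAt s l)
    {x : JZero L} (hx : x ∈ thetaPart L p (↑S : Set ℕ) θ) :
    ∃ N : ℕ, (frobP (JZero L) s (θ l) l ^ N) x = 0 := by
  obtain ⟨N, hN⟩ := trOp_frob_nil hp T S hTS hS θ rbar hcont hfrob hl hlp hlT hA hs hx
  exact ⟨N, frobP_pow_eq_zero_of_trOp s (θ l) l N x hN⟩

/-- `(T_l - θ l)^N x = 0` on the `θ`-part, also for `l ∈ S` (`l ∉ T`, `l ∤ L p`). -/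
theorem hecke_sub_nil {l : ℕ} (hl : l.Prime) (hlL : ¬ l ∣ L * p) (hlT : l ∉ T)
    {x : JZero L} (hx : x ∈ thetaPart L p (↑S : Set ℕ) θ) :
    ∃ N : ℕ, (hk L θ ⟨l, hl⟩ ^ N) x = 0 := by
  obtain ⟨A, s, hA, hs⟩ := S54.exists_isFrobeniusAt hl
  have hlp : l ≠ p := by
    rintro rfl
    exact hlL (Dvd.intro_left L rfl)
  obtain ⟨N, hN⟩ := trOp_frob_nil hp T S hTS hS θ rbar hcont hfrob hl hlp hlT hA hs hx
  obtain ⟨j, hj⟩ := hx.1
  refine ⟨N, ?_⟩
  rw [pow_apply_eq_of_eqOn (torsJ L (p ^ j)) (hk L θ ⟨l, hl⟩)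
    (trOp (JZero L) s (l : ℕ) - ((θ l : ℤ) : Module.End ℤ (JZero L))) ?_
    (fun y hy => end_mem_torsJ _ hy) N x hj]
  · exact hN
  · intro y hy
    rw [hk, LinearMap.sub_apply, LinearMap.sub_apply, trOp_apply, natCast_zsmul,
      SS.hecke_eq_frob' (SS.es_all L p).2 ⟨l, hl⟩ hlL hA hs y ⟨j, hy⟩]

/-- **(UNIT)** : `(l+1)² - T_l²` is injective on `W(L)`. -/
theorem unit_of_disc {l : ℕ} (hl : l.Prime) (hlL : ¬ l ∣ L * p) (hlT : l ∉ T)
    (hl1 : (p : ℤ) ∣ (l : ℤ) - 1) (hd : IsCoprime (p : ℤ) (θ l ^ 2 - 4)) :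
    ∀ v ∈ thetaPart L p (↑S : Set ℕ) θ, p • v = 0 →
      ((l + 1) ^ 2) • v - heckeOperatorBar L ⟨l, hl⟩ (heckeOperatorBar L ⟨l, hl⟩ v) = 0 → v = 0 := by
  intro v hv hpv h0
  obtain ⟨N, hN⟩ := hecke_sub_nil hp T S hTS hS θ rbar hcont hfrob hl hlL hlT hv
  set Tl := heckeOperatorBar L ⟨l, hl⟩ with hTl
  set a : ℤ := θ l with ha
  have m1 : (X - C a) ^ N ∈ annPoly Tl v := by
    rw [mem_annPoly, map_pow, map_sub, aeval_X, aeval_C]
    exact hN
  have m2 : C (p : ℤ) ∈ annPoly Tl v := by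
    rw [mem_annPoly, aeval_C, Module.algebraMap_end_apply, natCast_zsmul, hpv]
  have m3 : C (((l : ℤ) + 1) ^ 2) - X ^ 2 ∈ annPoly Tl v := by
    rw [mem_annPoly, map_sub, aeval_C, aeval_X_pow, LinearMap.sub_apply,
      Module.algebraMap_end_apply, pow_two Tl, Module.End.mul_apply, ← h0]
    congr 1
  set u : ℤ := ((l : ℤ) + 1) ^ 2 - a ^ 2 with hu
  have m4 : (C u) ^ N ∈ annPoly Tl v := by
    have e : C u = (C (((l : ℤ) + 1) ^ 2) - X ^ 2) + (X - C a) * (X + C a) := by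
      rw [hu, C_sub, C_pow (a := a)]; ring
    rw [e]
    refine (annPoly Tl v).add_pow_mem_of_pow_mem_of_le (m := 1) (n := N) ?_ ?_ (by omega)
    · rwa [pow_one]
    · rw [mul_pow, mul_comm]
      exact Ideal.mul_mem_left _ _ m1
  have hcop : IsCoprime (p : ℤ) (u ^ N) := by
    apply IsCoprime.pow_right
    obtain ⟨d, hd'⟩ := hl1
    have e : u = -(a ^ 2 - 4) + (p : ℤ) * (d * ((l : ℤ) + 3)) := by
      have : (l : ℤ) = 1 + p * d := by linarith
      rw [hu, this]; ring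
    rw [e]
    exact (IsCoprime.add_mul_left_right_iff).2 hd.neg_right
  obtain ⟨α, β, hαβ⟩ := hcop
  have m5 : (1 : ℤ[X]) ∈ annPoly Tl v := by
    have : (1 : ℤ[X]) = C α * C (p : ℤ) + C β * (C u) ^ N := by
      rw [← C_pow, ← C_mul, ← C_mul, ← C_add, hαβ, C_1]
    rw [this]
    exact (annPoly Tl v).add_mem (Ideal.mul_mem_left _ _ m2) (Ideal.mul_mem_left _ _ m4)
  rw [mem_annPoly, map_one, Module.End.one_apply] at m5
  exact m5

/-- **inertia at `l ≠ p` is unipotent on the `θ`-part** as soon as `rbar` is unramified at `l`. -/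
theorem inertia_unip {l : ℕ} (hl : l.Prime) (hlp : l ≠ p)
    {A : ValuationSubring Qbar} (hA : A.LiesOverPrime l) {τ : GQ} (hτ : τ ∈ A.inertiaSubgroupIn ℚ)
    (hτ1 : rbar τ = 1) {x : JZero L} (hx : x ∈ thetaPart L p (↑S : Set ℕ) θ) :
    ∃ N : ℕ, ((actEnd (JZero L) τ - 1) ^ N) x = 0 := by
  obtain ⟨j, hj⟩ := hx.1
  have : NeZero (p ^ j) := ⟨pow_ne_zero _ hp.ne_zero⟩
  obtain ⟨N, hN⟩ := trOp_sub_pow_eq_zero hp S hS θ rbar hcont
    (fun r hr hrS => hfrob r hr fun h => hrS (hTS h)) τ 2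
    (by rw [hτ1, Matrix.trace_one]; simp) hx j hj 1
    (inertia_root_pow hl (Nat.Coprime.pow_right _ ((Nat.coprime_primes hl hp).2 hlp)) hA hτ)
  refine ⟨2 * N, sub_one_pow_eq_zero_of_trOp τ N x ?_⟩
  simpa using hN

end Conc

end Fermat.Agent.RIB.TrNil

namespace Fermat.Agent.RIB

local notation "Qbar" => AlgebraicClosure ℚ
local notation "GQ" => (AlgebraicClosure ℚ ≃ₐ[ℚ] AlgebraicClosure ℚ)

variable {p : ℕ} [Fact p.Prime] {T : Finset ℕ} {θ : ℕ → ℤ}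
  {rbar0 : GQ →* Matrix (Fin 2) (Fin 2) (ZMod p)} {S : Finset ℕ} {L l ν : ℕ} [NeZero L]

/-- `(T_l - θ l)^N x = 0` on the `θ`-part, also for the primes `l ∈ S`, `l ∉ T`, `l ∤ L`. -/
theorem ECtx.hecke_sub_nil (EC : ECtx p T θ rbar0) (hTS : T ⊆ S)
    (hS : ∀ r : ℕ, r.Prime → r ∣ L * p → r ∈ S) (hl : l.Prime) (hlT : l ∉ T) (hlL : ¬ l ∣ L)
    {x : JZero L} (hx : x ∈ thetaPart L p (↑S : Set ℕ) θ) :
    ∃ N : ℕ, (hk L θ ⟨l, hl⟩ ^ N) x = 0 := by
  have hp : p.Prime := Fact.out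
  have hlLp : ¬ l ∣ L * p := fun h => by
    rcases (Nat.Prime.dvd_mul hl).1 h with h | h
    · exact hlL h
    · exact hlT ((Nat.prime_dvd_prime_iff_eq hl hp).1 h ▸ EC.p_mem)
  exact TrNil.hecke_sub_nil hp T S hTS hS θ rbar0 EC.cont EC.frob hl hlLp hlT hx

/-- **(UNIT)** : `unit_step` of `RIB/Main/PerLevel.lean`
(`unit_step EC SC := unit_step' EC SC.hl SC.hlT SC.hTS SC.hlL SC.hS SC.hν SC.hdvd SC.disc`). -/
theorem unit_step' (EC : ECtx p T θ rbar0) (hl : l.Prime) (hlT : l ∉ T) (hTS : T ⊆ S)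
    (hlL : ¬ l ∣ L) (hS : ∀ r : ℕ, r.Prime → r ∣ L * l * l * p → r ∈ S) (hν : 1 ≤ ν)
    (hdvd : p ^ ν ∣ l - 1) (disc : IsCoprime (p : ℤ) (θ l ^ 2 - 4)) :
    ∀ v ∈ thetaPart L p (↑S : Set ℕ) θ, p • v = 0 →
      ((l + 1) ^ 2) • v - heckeOperatorBar L ⟨l, hl⟩ (heckeOperatorBar L ⟨l, hl⟩ v) = 0 →
      v = 0 := by
  have hp : p.Prime := Fact.out
  have hlLp : ¬ l ∣ L * p := fun h => by
    rcases (Nat.Prime.dvd_mul hl).1 h with h | h
    · exact hlL h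
    · exact hlT ((Nat.prime_dvd_prime_iff_eq hl hp).1 h ▸ EC.p_mem)
  have hl1 : (p : ℤ) ∣ (l : ℤ) - 1 := by
    have h1 : p ∣ l - 1 := (dvd_pow_self p (by omega)).trans hdvd
    have h2 : ((l - 1 : ℕ) : ℤ) = (l : ℤ) - 1 := by
      rw [Nat.cast_sub hl.one_lt.le, Nat.cast_one]
    rw [← h2]
    exact_mod_cast h1
  exact TrNil.unit_of_disc hp T S hTS
    (fun r hr hd => hS r hr (by
      have : L * l * l * p = (L * p) * (l * l) := by ring
      rw [this]; exact Dvd.dvd.mul_right hd _)) θ rbar0 EC.cont EC.frob hl hlLp hlT hl1 disc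

end Fermat.Agent.RIB
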