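import Fermat.Agent.RIB.Rho.Main
import Fermat.Agent.S56.Tame.Main
import Fermat.Agent.S54.Frobenius

/-!
# RIB / RHO / OrdC : (RHO-ord)   `τ ^ (p ^ ν) = 1` on the whole `θ`-part, `τ ∈ I_l`, `l` a Taylor-Wiles prime with `p ^ ν ∥ l - 1`

From helper30's package `exists_rho_tors` over `ZMod (p ^ j)`, helper53's `TameAlg.pow_p_pow_eq_one` and `S56.tame_frob`
(same proof as helper84's `IsRho.pow_smul_eq` on `W(L)`).
-/

set_option autoImplicit false
set_option linter.unusedSectionVars false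

noncomputable section

open AlgebraicCurve ModularCurve Module

namespace Fermat.Agent.RIB.OrdC

open Fermat.Agent.GAL Fermat.Agent.GAL.PC Fermat.Agent.TW.TR Fermat.Agent.RIB.Rho

local notation "Qbar" => AlgebraicClosure ℚ
local notation "GQ" => (AlgebraicClosure ℚ ≃ₐ[ℚ] AlgebraicClosure ℚ)
local notation "M₂" => Matrix (Fin 2) (Fin 2)

section TP

variable (L p : ℕ) [NeZero L] (S : Set ℕ) (θ : ℕ → ℤ) (m : ℕ)

/-- the `m`-torsion of the `θ`-part. -/
def TP : AddSubgroup (JZero L) where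
  carrier := {x | x ∈ thetaPart L p S θ ∧ m • x = 0}
  zero_mem' := ⟨(thetaPart L p S θ).zero_mem, smul_zero _⟩
  add_mem' := by
    rintro a b ⟨ha, ha'⟩ ⟨hb, hb'⟩
    exact ⟨(thetaPart L p S θ).add_mem ha hb, by rw [nsmul_add, ha', hb', add_zero]⟩
  neg_mem' := by
    rintro a ⟨ha, ha'⟩
    exact ⟨(thetaPart L p S θ).neg_mem ha, by rw [neg_nsmul, ha', neg_zero]⟩

variable {L p S θ m}

theorem smul_mem_TP (σ : GQ) {x : JZero L} (hx : x ∈ TP L p S θ m) : σ • x ∈ TP L p S θ m :=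
  ⟨smul_mem_thetaPart σ hx.1, by
    have h := map_nsmul (DistribSMul.toAddMonoidHom (JZero L) σ) m x
    rw [hx.2, map_zero] at h
    exact h.symm⟩

instance instModuleTP : Module (ZMod m) ↥(TP L p S θ m) :=
  AddCommGroup.zmodModule fun x => Subtype.ext x.2.2

instance instActionTP : DistribMulAction GQ ↥(TP L p S θ m) where
  smul σ x := ⟨σ • x.1, smul_mem_TP σ x.2⟩
  one_smul x := Subtype.ext (one_smul GQ x.1)
  mul_smul σ τ x := Subtype.ext (mul_smul σ τ x.1)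
  smul_zero σ := Subtype.ext (smul_zero σ)
  smul_add σ x y := Subtype.ext (smul_add σ x.1 y.1)

theorem coe_smul_TP (σ : GQ) (x : ↥(TP L p S θ m)) :
    ((σ • x : ↥(TP L p S θ m)) : JZero L) = σ • (x : JZero L) := rfl

instance instSMulCommTP : SMulCommClass GQ (ZMod m) ↥(TP L p S θ m) where
  smul_comm σ c x :=
    ((DistribSMul.toAddMonoidHom ↥(TP L p S θ m) σ).toZModLinearMap m).map_smul c x

instance instFiniteTP [NeZero m] : Finite ↥(TP L p S θ m) :=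
  Set.Finite.to_subtype ((finite_torsion_JZero L m (NeZero.ne m)).subset fun _ hx => hx.2)

end TP

/-- a ring homomorphism `ZMod p → Q` as soon as `p = 0` in `Q`. -/
def psiOf {Q : Type*} [CommRing Q] (p : ℕ) (h : (p : Q) = 0) : ZMod p →+* Q :=
  (Ideal.Quotient.lift (Ideal.span {(p : ℤ)}) (Int.castRingHom Q) (fun a ha => by
    obtain ⟨b, rfl⟩ := Ideal.mem_span_singleton.1 ha
    rw [map_mul, eq_intCast, Int.cast_natCast, h, zero_mul])).comp
    (Int.quotientSpanNatEquivZMod p).symm.toRingHom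

variable {p : ℕ} [Fact p.Prime] {T : Finset ℕ} {θ : ℕ → ℤ} {rbar0 : GQ →* M₂ (ZMod p)}

set_option maxHeartbeats 3200000 in
/-- **(RHO-ord)** -/
theorem rho_ord_c (EC : ECtx p T θ rbar0) (S : Finset ℕ) (hTS : T ⊆ S) (L : ℕ) [NeZero L]
    (hL : ∀ r : ℕ, r.Prime → r ∣ L * p → r ∈ S) {l ν : ℕ} (hl : l.Prime) (hlT : l ∉ T)
    (hν : 1 ≤ ν) (hdvd : p ^ ν ∣ l - 1) (hex : ¬ p ^ (ν + 1) ∣ l - 1)
    (disc : IsCoprime (p : ℤ) (θ l ^ 2 - 4)) {A : ValuationSubring Qbar}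
    (hA : A.LiesOverPrime l) :
    ∀ τ ∈ A.inertiaSubgroupIn ℚ, ∀ x ∈ thetaPart L p (↑S : Set ℕ) θ, τ ^ (p ^ ν) • x = x := by
  intro τ hτ x hx
  have hp : p.Prime := Fact.out
  obtain ⟨σ₀, τ₀, u0, hu0, hnf⟩ := EC.nf
  obtain ⟨⟨j, hj⟩, -⟩ := mem_thetaPart.1 hx
  obtain ⟨m, hm⟩ : ∃ m, m = p ^ (j + 1) := ⟨_, rfl⟩
  have : NeZero m := ⟨by rw [hm]; exact pow_ne_zero _ hp.ne_zero⟩
  have hpm : p ∣ m := by rw [hm]; exact dvd_pow_self p (Nat.succ_ne_zero j)
  have hxm : x ∈ TP L p (↑S : Set ℕ) θ m := ⟨hx, by rw [hm, pow_succ', mul_smul, hj, smul_zero]⟩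
  have hl2 : l ≠ 2 := fun h => hlT (h ▸ EC.two_mem)
  have hlp : l ≠ p := fun h => hlT (h ▸ EC.p_mem)
  have hur : ∀ σ ∈ A.inertiaSubgroupIn ℚ, rbar0 σ = 1 := EC.unram l hl hl2 hlp A hA
  obtain ⟨φ, hφ⟩ := S54.exists_isFrobeniusAt_of_liesOverPrime hl A hA
  obtain ⟨R, iC, iA, iM, iT, iF, t, ρ, Φ, h1, h2, h3, h4, h5, h6, h7, -, h8⟩ :=
    exists_rho_tors (V := ↥(TP L p (↑S : Set ℕ) θ m)) (m := m) (TP L p (↑S : Set ℕ) θ m).subtype
      Subtype.val_injective (fun _ _ => rfl) hp (j := j + 1) hm hpm S hL θ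
      (fun r hr v => (mem_thetaPart.1 v.2.1).2 r (fun h => hr (Finset.mem_coe.1 h)))
      rbar0 EC.cont (fun r hr hrS => EC.frob r hr (fun h => hrS (hTS h)))
      (inv_mul_cancel₀ (ECtx.two_ne_zero EC)) complexConjugation_mul_self
      (chiM_complexConjugation m) hu0
  -- the nilradical
  obtain ⟨N, hN⟩ : ∃ N : ℕ, nilradical R ^ N = ⊥ := IsArtinianRing.isNilpotent_nilradical (R := R)
  have hpnil : IsNilpotent ((p : ℕ) : R) := by
    refine ⟨j + 1, ?_⟩
    have e : ((p : ℕ) : R) ^ (j + 1) = algebraMap (ZMod m) R ((m : ℕ) : ZMod m) := by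
      rw [map_natCast, hm, Nat.cast_pow]
    rw [e, ZMod.natCast_self, map_zero]
  have hpI : ((p : ℕ) : R) ∈ nilradical R := mem_nilradical.2 hpnil
  set κ : R →+* R ⧸ nilradical R := Ideal.Quotient.mk (nilradical R) with hκdef
  have hκ : ∀ y : R, IsNilpotent y → κ y = 0 := fun y hy =>
    Ideal.Quotient.eq_zero_iff_mem.2 (mem_nilradical.2 hy)
  have hpQ : ((p : ℕ) : R ⧸ nilradical R) = 0 := by
    rw [← map_natCast κ]; exact hκ _ hpnil
  set ψ : ZMod p →+* R ⧸ nilradical R := psiOf p hpQ with hψ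
  have hmap : ∀ g : GQ, (ρ g).map κ = (rbar0 g).map ψ := by
    intro g
    rw [(h8 _ κ ψ hκ g).2]
    conv_rhs => rw [hnf g]
  have hentry : ∀ (g : GQ) (a b : Fin 2), κ (ρ g a b) = ψ (rbar0 g a b) := fun g a b =>
    congrFun (congrFun (hmap g) a) b
  have hent : ∀ g : GQ, rbar0 g = 1 → ∀ a b, (ρ g - 1) a b ∈ nilradical R := by
    intro g hg a b
    rw [← Ideal.Quotient.eq_zero_iff_mem, ← hκdef, Matrix.sub_apply, map_sub, hentry, hg]
    by_cases hab : a = b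
    · subst hab
      rw [Matrix.one_apply_eq, Matrix.one_apply_eq, map_one, map_one, sub_self]
    · rw [Matrix.one_apply_ne hab, Matrix.one_apply_ne hab, map_zero, map_zero, sub_self]
  have hrho_eq : ∀ g h : GQ, (∀ v : ↥(TP L p (↑S : Set ℕ) θ m), g • v = h • v) → ρ g = ρ h := by
    intro g h hgh
    refine sub_eq_zero.1 (h7 _ fun v => ?_)
    rw [map_sub, LinearMap.sub_apply, h6, h6, hgh, sub_self]
  -- the image of inertia is a `p`-group
  have hpow : ∀ g : GQ, rbar0 g = 1 → ∀ v : ↥(TP L p (↑S : Set ℕ) θ m), g ^ (p ^ N) • v = v := by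
    intro g hg v
    have e1 := TameAlg.ent_pow_p_pow (I := nilradical R) (p := p) hpI (hent g hg) N
    have e2 : nilradical R ^ (N + 1) = ⊥ := by rw [pow_succ, hN, Ideal.bot_mul]
    rw [e2] at e1
    have e3 : ρ (g ^ (p ^ N)) = 1 := by
      rw [map_pow]
      exact sub_eq_zero.1 e1.eq_zero
    have e4 := h6 (g ^ (p ^ N)) v
    rw [e3, map_one] at e4
    exact e4.symm
  -- the tame relation
  have htame : ∀ v : ↥(TP L p (↑S : Set ℕ) θ m), (φ * τ * φ⁻¹) • v = τ ^ l • v := by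
    intro w
    let h : ↥(A.inertiaSubgroupIn ℚ) →* Function.End ↥(TP L p (↑S : Set ℕ) θ m) :=
      { toFun := fun τ x => (τ : GQ) • x
        map_one' := by
          funext x
          exact one_smul GQ x
        map_mul' := fun τ τ' => by
          funext x
          exact mul_smul (τ : GQ) (τ' : GQ) x }
    have hpw : ∀ (τ : ↥(A.inertiaSubgroupIn ℚ)) (n : ℕ) (x : ↥(TP L p (↑S : Set ℕ) θ m)),
        (h τ ^ n) x = (τ : GQ) ^ n • x := by
      intro τ n x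
      rw [← map_pow]
      rfl
    obtain ⟨F, hF1, hF2⟩ := exists_level_torsion L m (NeZero.ne m)
    have hcop : Nat.Coprime (p ^ N) l :=
      Nat.Coprime.pow_left N ((Nat.coprime_primes hp hl).2 (Ne.symm hlp))
    have hconj : φ * τ * φ⁻¹ ∈ A.inertiaSubgroupIn ℚ :=
      S56.conj_mem_inertia hl hA hφ.mem_decompositionSubgroup hτ
    have := S56.tame_frob hl hA h
      ⟨F, hF1, fun σ hσ => by
        funext x
        exact Subtype.ext (hF2 σ hσ x.1 x.2.2)⟩ (p ^ N) hcop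
      (fun σ => by
        funext x
        rw [hpw]
        exact hpow σ (hur σ σ.2) x) hφ ⟨τ, hτ⟩ hconj
    have e2 := congrFun this w
    rw [hpw] at e2
    exact e2
  have hrel : ρ φ * ρ τ = ρ τ ^ l * ρ φ := by
    have e1 : ρ (φ * τ * φ⁻¹) = ρ (τ ^ l) := hrho_eq _ _ htame
    have e2 : ρ (φ * τ * φ⁻¹) * ρ φ = ρ φ * ρ τ := by
      rw [← map_mul, ← map_mul, inv_mul_cancel_right]
    rw [← e2, e1, map_pow]
  have hFr : IsUnit (ρ φ) := (Group.isUnit φ).map ρ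
  -- arithmetic of `l`
  obtain ⟨c, hc⟩ := hdvd
  have hlv : l = p ^ ν * c + 1 := by
    have := hl.one_lt
    omega
  have hpc : ¬ p ∣ c := by
    rintro ⟨c', rfl⟩
    exact hex ⟨c', by rw [hc, pow_succ, mul_assoc]⟩
  -- the discriminant
  obtain ⟨f1, f2⟩ := EC.frob l hl hlT A hA φ hφ
  have hl1 : ((l : ℕ) : ZMod p) = 1 := by
    rw [hlv]
    push_cast
    obtain ⟨w, rfl⟩ := Nat.exists_eq_succ_of_ne_zero (Nat.one_le_iff_ne_zero.1 hν)
    rw [pow_succ', ZMod.natCast_self, zero_mul, zero_mul, zero_add]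
  have hdisc0 : (rbar0 φ).trace ^ 2 - 4 * (rbar0 φ).det ≠ 0 := by
    rw [f1, f2, hl1, mul_one]
    intro h4
    have h5 : (((θ l ^ 2 - 4 : ℤ)) : ZMod p) = 0 := by
      push_cast
      exact h4
    have h6' := (ZMod.intCast_zmod_eq_zero_iff_dvd _ p).1 h5
    exact (Prime.coprime_iff_not_dvd (Nat.prime_iff_prime_int.1 hp)).1 disc h6'
  have hd : IsUnit ((ρ φ).trace ^ 2 - 4 * (ρ φ).det) := by
    rw [← IsNilpotent.isUnit_quotient_mk_iff (I := nilradical R) ⟨N, hN⟩, ← hκdef]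
    have e : κ ((ρ φ).trace ^ 2 - 4 * (ρ φ).det) = ψ ((rbar0 φ).trace ^ 2 - 4 * (rbar0 φ).det) := by
      rw [Matrix.trace_fin_two, Matrix.det_fin_two, Matrix.trace_fin_two, Matrix.det_fin_two]
      simp only [map_sub, map_mul, map_add, map_pow, hentry, map_ofNat]
    rw [e]
    exact (isUnit_iff_ne_zero.2 hdisc0).map ψ
  have hfin := TameAlg.pow_p_pow_eq_one hN hp hpI hlv hpc hFr hrel (hent τ (hur τ hτ)) hd
    (Nat.lt_of_lt_of_le Nat.zero_lt_one hν)
  have e4 := h6 (τ ^ (p ^ ν)) ⟨x, hxm⟩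
  rw [map_pow, hfin, map_one] at e4
  exact (congrArg Subtype.val e4).symm

end Fermat.Agent.RIB.OrdC
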